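import Mathlib.GroupTheory.Index
import Mathlib.GroupTheory.OrderOfElement
import Mathlib.GroupTheory.QuotientGroup.Basic
import Mathlib.Data.Nat.Prime.Basic
import Mathlib.Data.Set.Card
import Mathlib.Tactic.Ring

/-!
# Exact rows from counting

`T ≤ F ≤ ker N` are subgroups of an abelian group `J`, `N` maps torsion into `T`, and `red` maps
`F` to `Y` with kernel `T`. If the orders of the `p ^ m`-torsion subgroups are those of the two
rows `T → F → Y`, `ker N → J → T` up to a bounded factor `D`, then `red` is surjective on every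
level, and an operator mapping `ker N` into `F` makes `N` surjective up to itself.
-/

set_option autoImplicit false

noncomputable section

namespace Fermat.Agent.ToricRows

variable {J : Type*} [AddCommGroup J]

/-- The part of `H` killed by `p ^ m`. -/
def lev (p : ℕ) (H : AddSubgroup J) (m : ℕ) : AddSubgroup J :=
  H ⊓ AddMonoidHom.ker (nsmulAddMonoidHom (α := J) (p ^ m))

theorem lev_smul {p : ℕ} {H : AddSubgroup J} {m : ℕ} {x : J} (hx : x ∈ lev p H m) :
    p ^ m • x = 0 := hx.2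

theorem lev_le (p : ℕ) {H H' : AddSubgroup J} (h : H ≤ H') (m : ℕ) :
    lev p H m ≤ lev p H' m := fun _ hx => ⟨h hx.1, hx.2⟩

theorem finite_lev_of_natCard {p a : ℕ} (hp : p.Prime) {H : AddSubgroup J} {m : ℕ}
    (h : Nat.card (lev p H m) = p ^ (m * a)) : Finite (lev p H m) :=
  Nat.finite_of_card_ne_zero (by rw [h]; exact pow_ne_zero _ hp.ne_zero)

/-- Levels of orders `p ^ (m a)` form a divisible group. -/
theorem exists_root_of_natCard {p a : ℕ} (hp : p.Prime) (H : AddSubgroup J)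
    (h : ∀ m, Nat.card (lev p H m) = p ^ (m * a)) {m : ℕ} {y : J} (hy : y ∈ lev p H m) :
    ∃ z ∈ lev p H (m + 1), p • z = y := by
  have : ∀ m, Finite (lev p H m) := fun m => finite_lev_of_natCard hp (h m)
  let f : lev p H (m + 1) →+ lev p H m := AddMonoidHom.mk'
    (fun x => ⟨p • (x : J), H.nsmul_mem x.2.1 p, show p ^ m • (p • (x : J)) = 0 by
      rw [← mul_smul, ← pow_succ]; exact x.2.2⟩)
    fun x y => Subtype.ext (by simp)
  have hker : Nat.card f.ker ≤ p ^ a := by
    rw [show p ^ a = p ^ (1 * a) by rw [one_mul], ← h 1]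
    exact Nat.card_le_card_of_injective
      (fun x : f.ker => (⟨((x : lev p H (m + 1)) : J), (x : lev p H (m + 1)).2.1,
        show p ^ 1 • ((x : lev p H (m + 1)) : J) = 0 by
          rw [pow_one]; exact congrArg Subtype.val x.2⟩ : lev p H 1))
      fun x y hxy => Subtype.ext (Subtype.ext (Subtype.mk.inj hxy))
  have hcard : Nat.card (lev p H (m + 1)) = Nat.card f.range * Nat.card f.ker := by
    rw [← Nat.card_congr (QuotientAddGroup.quotientKerEquivRange f).toEquiv,
      ← AddSubgroup.card_eq_card_quotient_mul_card_addSubgroup]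
  have hrange : f.range = ⊤ := by
    refine AddSubgroup.eq_top_of_le_card _ ?_
    by_contra hlt
    push Not at hlt
    have := (Nat.mul_le_mul_left (Nat.card f.range) hker).trans_lt
      (Nat.mul_lt_mul_of_lt_of_le hlt le_rfl (pow_pos hp.pos a))
    rw [← hcard, h, h, ← pow_add] at this
    rw [add_one_mul] at this
    exact lt_irrefl _ this
  obtain ⟨z, hz⟩ : (⟨y, hy⟩ : lev p H m) ∈ f.range := hrange ▸ AddSubgroup.mem_top _
  exact ⟨z, z.2, congrArg Subtype.val hz⟩

theorem exists_root_pow {p a : ℕ} (hp : p.Prime) (H : AddSubgroup J)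
    (h : ∀ m, Nat.card (lev p H m) = p ^ (m * a)) {m : ℕ} {y : J} (hy : y ∈ lev p H m) :
    ∀ j : ℕ, ∃ z ∈ lev p H (m + j), p ^ j • z = y := by
  intro j
  induction j with
  | zero => exact ⟨y, hy, by rw [pow_zero, one_nsmul]⟩
  | succ j ih =>
    obtain ⟨z, hz, hzy⟩ := ih
    obtain ⟨w, hw, hwz⟩ := exists_root_of_natCard hp H h hz
    exact ⟨w, hw, by rw [pow_succ, mul_smul, hwz, hzy]⟩

/-- A subgroup of bounded index in every level of a divisible torsion group contains it. -/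
theorem le_of_bounded_index {p a D : ℕ} (hp : p.Prime) (H I : AddSubgroup J) (hle : I ≤ H)
    (h : ∀ m, Nat.card (lev p H m) = p ^ (m * a))
    (hI : ∀ m, Nat.card (lev p H m) ≤ D * Nat.card (lev p I m)) (m : ℕ) : lev p H m ≤ I := by
  classical
  intro y hy
  obtain ⟨j, hj⟩ : ∃ j, D < p ^ j := ⟨D, Nat.lt_pow_self hp.one_lt⟩
  obtain ⟨z, hz, hzy⟩ := exists_root_pow hp H h hy j
  set M := m + j
  have : Finite (lev p H M) := finite_lev_of_natCard hp (h M)
  let K : AddSubgroup (lev p H M) := (lev p I M).addSubgroupOf (lev p H M)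
  have hK : Nat.card K = Nat.card (lev p I M) :=
    Nat.card_congr (AddSubgroup.addSubgroupOfEquivOfLe (lev_le p hle M)).toEquiv
  have hidx : Nat.card (lev p H M ⧸ K) ≤ D := by
    have := AddSubgroup.card_eq_card_quotient_mul_card_addSubgroup K
    have hpos : 0 < Nat.card (lev p I M) := hK ▸ Nat.card_pos
    refine Nat.le_of_mul_le_mul_right (c := Nat.card (lev p I M)) ?_ hpos
    rw [← hK, ← this, hK]
    exact hI M
  have : Finite (lev p H M ⧸ K) := inferInstance
  set o := addOrderOf (QuotientAddGroup.mk' K ⟨z, hz⟩) with ho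
  have hoD : o ≤ D := (Nat.le_of_dvd Nat.card_pos (addOrderOf_dvd_natCard _)).trans hidx
  have hdvd : o ∣ p ^ M := addOrderOf_dvd_of_nsmul_eq_zero (by
    rw [← map_nsmul, show p ^ M • (⟨z, hz⟩ : lev p H M) = 0 from Subtype.ext hz.2, map_zero])
  obtain ⟨c, -, hc⟩ := (Nat.dvd_prime_pow hp).mp hdvd
  have hcj : c ≤ j := by
    by_contra hlt
    push Not at hlt
    have := Nat.pow_le_pow_right hp.pos hlt.le
    omega
  have hzero : p ^ j • QuotientAddGroup.mk' K ⟨z, hz⟩ = 0 :=
    addOrderOf_dvd_iff_nsmul_eq_zero.mp (by rw [← ho, hc]; exact pow_dvd_pow p hcj)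
  rw [← map_nsmul] at hzero
  have hmem := (QuotientAddGroup.eq_zero_iff _).mp hzero
  rw [AddSubgroup.mem_addSubgroupOf, AddSubgroupClass.coe_nsmul] at hmem
  rw [← hzy]
  exact hmem.1

/-- The data of the two rows. -/
structure RowData (J Y : Type*) [AddCommGroup J] [AddCommGroup Y] where
  p : ℕ
  hp : p.Prime
  a : ℕ
  b : ℕ
  D : ℕ
  N : J →+ J
  T : AddSubgroup J
  F : AddSubgroup J
  red : F →+ Y
  T_le : T ≤ F
  F_le : ∀ x ∈ F, N x = 0
  N_mem : ∀ (m : ℕ) (x : J), p ^ m • x = 0 → N x ∈ T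
  red_eq_zero : ∀ (m : ℕ) (x : J) (hx : x ∈ F), p ^ m • x = 0 → (red ⟨x, hx⟩ = 0 ↔ x ∈ T)
  card_T : ∀ m, Nat.card (lev p T m) = p ^ (m * a)
  card_J : ∀ m, Nat.card (lev p (⊤ : AddSubgroup J) m) = p ^ (m * (2 * a + b))
  card_Y : ∀ m, Nat.card (lev p (⊤ : AddSubgroup Y) m) = p ^ (m * b)
  index : ∀ m, Nat.card (lev p N.ker m) ≤ D * Nat.card (lev p F m)

namespace RowData

variable {Y : Type*} [AddCommGroup Y] (S : RowData J Y)

theorem finite_J (m : ℕ) : Finite (lev S.p (⊤ : AddSubgroup J) m) :=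
  finite_lev_of_natCard S.hp (S.card_J m)

theorem finite_Y (m : ℕ) : Finite (lev S.p (⊤ : AddSubgroup Y) m) :=
  finite_lev_of_natCard S.hp (S.card_Y m)

/-- The reductions, as a subgroup of `Y`. -/
def image : AddSubgroup Y := S.red.range

/-- The monodromy image of the torsion. -/
def monImage : AddSubgroup J where
  carrier := {y | ∃ (m : ℕ) (x : J), S.p ^ m • x = 0 ∧ S.N x = y}
  zero_mem' := ⟨0, 0, smul_zero _, map_zero _⟩
  add_mem' := by
    rintro _ _ ⟨m, x, hx, rfl⟩ ⟨m', x', hx', rfl⟩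
    refine ⟨m + m', x + x', ?_, map_add _ _ _⟩
    have e1 : S.p ^ (m + m') • x = 0 := by rw [pow_add, mul_comm, mul_smul, hx, smul_zero]
    have e2 : S.p ^ (m + m') • x' = 0 := by rw [pow_add, mul_smul, hx', smul_zero]
    rw [smul_add, e1, e2, add_zero]
  neg_mem' := by
    rintro _ ⟨m, x, hx, rfl⟩
    exact ⟨m, -x, by rw [smul_neg, hx, neg_zero], map_neg _ _⟩

theorem monImage_le : S.monImage ≤ S.T := by
  rintro _ ⟨m, x, hx, rfl⟩
  exact S.N_mem m x hx

theorem card_split (m : ℕ) : ∃ r s : ℕ,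
    r ≤ Nat.card (lev S.p S.monImage m) ∧ s ≤ Nat.card (lev S.p S.image m) ∧
      s ≤ S.p ^ (m * S.b) ∧ r ≤ S.p ^ (m * S.a) ∧
      S.p ^ (m * (2 * S.a + S.b)) ≤ S.D * (s * S.p ^ (m * S.a)) * r := by
  classical
  have := S.finite_J m
  have := S.finite_Y m
  let J' := lev S.p (⊤ : AddSubgroup J) m
  have : Finite (lev S.p S.T m) := finite_lev_of_natCard S.hp (S.card_T m)
  have : Finite (lev S.p S.monImage m) := Finite.of_injective _
    (AddSubgroup.inclusion_injective (lev_le S.p S.monImage_le m))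
  let f : J' →+ lev S.p S.monImage m := AddMonoidHom.mk'
    (fun x => ⟨S.N x, ⟨m, x, x.2.2, rfl⟩, show S.p ^ m • S.N x = 0 by
      rw [← map_nsmul, lev_smul x.2, map_zero]⟩) fun x y => Subtype.ext (map_add _ _ _)
  have hf : Nat.card J' = Nat.card f.range * Nat.card f.ker := by
    rw [← Nat.card_congr (QuotientAddGroup.quotientKerEquivRange f).toEquiv,
      ← AddSubgroup.card_eq_card_quotient_mul_card_addSubgroup]
  have : Finite (lev S.p S.image m) := Finite.of_injective _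
    (AddSubgroup.inclusion_injective (lev_le S.p (le_top : S.image ≤ ⊤) m))
  let F' := lev S.p S.F m
  have : Finite F' := Finite.of_injective _
    (AddSubgroup.inclusion_injective (lev_le S.p (le_top : S.F ≤ ⊤) m))
  let g : F' →+ lev S.p S.image m := AddMonoidHom.mk'
    (fun x => ⟨S.red ⟨x, x.2.1⟩, ⟨_, rfl⟩, show S.p ^ m • S.red ⟨x, x.2.1⟩ = 0 by
      rw [← map_nsmul, show S.p ^ m • (⟨x, x.2.1⟩ : S.F) = 0 from Subtype.ext x.2.2, map_zero]⟩)
    fun x y => Subtype.ext (by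
      show S.red (⟨(x : J) + (y : J), S.F.add_mem x.2.1 y.2.1⟩ : S.F) = _
      exact map_add S.red ⟨x, x.2.1⟩ ⟨y, y.2.1⟩)
  have hg : Nat.card F' = Nat.card g.range * Nat.card g.ker := by
    rw [← Nat.card_congr (QuotientAddGroup.quotientKerEquivRange g).toEquiv,
      ← AddSubgroup.card_eq_card_quotient_mul_card_addSubgroup]
  have hker : Nat.card f.ker ≤ S.D * Nat.card F' := by
    refine le_trans ?_ (S.index m)
    have : Finite (lev S.p S.N.ker m) := Finite.of_injective _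
      (AddSubgroup.inclusion_injective (lev_le S.p (le_top : S.N.ker ≤ ⊤) m))
    exact Nat.card_le_card_of_injective
      (fun x : f.ker => (⟨((x : J') : J), congrArg Subtype.val x.2, (x : J').2.2⟩ :
        lev S.p S.N.ker m))
      fun x y hxy => Subtype.ext (Subtype.ext (Subtype.mk.inj hxy))
  have hgker : Nat.card g.ker ≤ S.p ^ (m * S.a) := by
    rw [← S.card_T m]
    exact Nat.card_le_card_of_injective
      (fun x : g.ker => (⟨((x : F') : J), (S.red_eq_zero m _ (x : F').2.1 (x : F').2.2).mp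
        (congrArg Subtype.val x.2), (x : F').2.2⟩ : lev S.p S.T m))
      fun x y hxy => Subtype.ext (Subtype.ext (Subtype.mk.inj hxy))
  refine ⟨Nat.card f.range, Nat.card g.range, Nat.card_le_card_of_injective _
    Subtype.val_injective, Nat.card_le_card_of_injective _ Subtype.val_injective, ?_, ?_, ?_⟩
  · rw [← S.card_Y m]
    exact (Nat.card_le_card_of_injective _ Subtype.val_injective).trans
      (Nat.card_le_card_of_injective _
        (AddSubgroup.inclusion_injective (lev_le S.p (le_top : S.image ≤ ⊤) m)))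
  · rw [← S.card_T m]
    exact (Nat.card_le_card_of_injective _ Subtype.val_injective).trans
      (Nat.card_le_card_of_injective _
        (AddSubgroup.inclusion_injective (lev_le S.p S.monImage_le m)))
  · rw [← S.card_J m, hf, mul_comm (Nat.card f.range)]
    refine Nat.mul_le_mul_right _ (hker.trans (Nat.mul_le_mul_left _ ?_))
    rw [hg]
    exact Nat.mul_le_mul_left _ hgker

/-- The monodromy image is everything, at the level of the torsion group. -/
theorem T_le_monImage (m : ℕ) : lev S.p S.T m ≤ S.monImage :=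
  le_of_bounded_index (D := S.D) S.hp S.T S.monImage S.monImage_le S.card_T (fun m => by
    obtain ⟨r, s, hr, -, hs, -, h⟩ := S.card_split m
    rw [S.card_T m]
    refine le_trans ?_ (Nat.mul_le_mul_left _ hr)
    refine Nat.le_of_mul_le_mul_right (c := S.p ^ (m * S.a + m * S.b)) ?_
      (pow_pos S.hp.pos _)
    calc S.p ^ (m * S.a) * S.p ^ (m * S.a + m * S.b) = S.p ^ (m * (2 * S.a + S.b)) := by
          rw [← pow_add]; ring_nf
      _ ≤ S.D * (s * S.p ^ (m * S.a)) * r := h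
      _ ≤ S.D * (S.p ^ (m * S.b) * S.p ^ (m * S.a)) * r :=
          Nat.mul_le_mul_right _ (Nat.mul_le_mul_left _ (Nat.mul_le_mul_right _ hs))
      _ = S.D * r * S.p ^ (m * S.a + m * S.b) := by rw [pow_add]; ring) m

/-- Every torsion class of `Y` is a reduction. -/
theorem exists_red (m : ℕ) {y : Y} (hy : S.p ^ m • y = 0) : ∃ x : S.F, S.red x = y :=
  le_of_bounded_index (D := S.D) S.hp ⊤ S.image le_top S.card_Y (fun m => by
    obtain ⟨r, s, -, hs, -, hr, h⟩ := S.card_split m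
    rw [S.card_Y m]
    refine le_trans ?_ (Nat.mul_le_mul_left _ hs)
    refine Nat.le_of_mul_le_mul_right (c := S.p ^ (m * S.a + m * S.a)) ?_
      (pow_pos S.hp.pos _)
    calc S.p ^ (m * S.b) * S.p ^ (m * S.a + m * S.a) = S.p ^ (m * (2 * S.a + S.b)) := by
          rw [← pow_add]; ring_nf
      _ ≤ S.D * (s * S.p ^ (m * S.a)) * r := h
      _ ≤ S.D * (s * S.p ^ (m * S.a)) * S.p ^ (m * S.a) := Nat.mul_le_mul_left _ hr
      _ = S.D * s * S.p ^ (m * S.a + m * S.a) := by rw [pow_add]; ring) m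
    ⟨AddSubgroup.mem_top _, hy⟩

/-- `red` is surjective at every finite level, when torsion of `F` only comes from torsion. -/
theorem exists_red_level (hF : ∀ x ∈ S.F, ∃ j, S.p ^ j • x = 0) (m : ℕ) {y : Y}
    (hy : S.p ^ m • y = 0) :
    ∃ x, ∃ hx : x ∈ S.F, S.p ^ m • x = 0 ∧ S.red ⟨x, hx⟩ = y := by
  obtain ⟨⟨x, hx⟩, rfl⟩ := S.exists_red m hy
  obtain ⟨j, hj⟩ := hF x hx
  have hT : S.p ^ m • x ∈ S.T :=
    (S.red_eq_zero j _ (S.F.nsmul_mem hx _) (by rw [smul_comm, hj, smul_zero])).mp (by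
      rw [show (⟨S.p ^ m • x, S.F.nsmul_mem hx _⟩ : S.F) = S.p ^ m • ⟨x, hx⟩ from Subtype.ext rfl,
        map_nsmul]
      exact hy)
  obtain ⟨t, ht, htx⟩ := exists_root_pow S.hp S.T S.card_T
    (m := j) (y := S.p ^ m • x) ⟨hT, show S.p ^ j • (S.p ^ m • x) = 0 by
      rw [smul_comm, hj, smul_zero]⟩ m
  have htF := S.T_le ht.1
  refine ⟨x - t, S.F.sub_mem hx htF, by rw [smul_sub, htx, sub_self], ?_⟩
  rw [show (⟨x - t, S.F.sub_mem hx htF⟩ : S.F) = ⟨x, hx⟩ - ⟨t, htF⟩ from rfl, map_sub,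
    (S.red_eq_zero _ t htF ht.2).mpr ht.1, sub_zero]

/-- An operator commuting with `N` and mapping its kernel into `F` maps `T` into the image of the
level. -/
theorem exists_mon (hF : ∀ x ∈ S.F, ∃ j, S.p ^ j • x = 0) (η : J →+ J)
    (hη : ∀ x, S.N (η x) = η (S.N x))
    (hηF : ∀ (j : ℕ) (x : J), S.p ^ j • x = 0 → S.N x = 0 → η x ∈ S.F) (m : ℕ) {y : J}
    (hy : y ∈ lev S.p S.T m) : ∃ x, S.p ^ m • x = 0 ∧ S.N x = η y := by
  obtain ⟨j, x, hx, hxy⟩ := S.T_le_monImage m hy
  have hw : η (S.p ^ m • x) ∈ S.F := hηF j _ (by rw [smul_comm, hx, smul_zero])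
    (by rw [map_nsmul, hxy]; exact hy.2)
  obtain ⟨j', hj'⟩ := hF _ hw
  obtain ⟨t', ht'⟩ : ∃ t', t' + m ≥ j' := ⟨j', by omega⟩
  have hred : S.p ^ j' • S.red ⟨_, hw⟩ = 0 := by
    rw [← map_nsmul, show S.p ^ j' • (⟨_, hw⟩ : S.F) = 0 from Subtype.ext hj', map_zero]
  obtain ⟨w, hw', hwy⟩ := exists_root_pow S.hp (⊤ : AddSubgroup Y) S.card_Y (m := j')
    (y := S.red ⟨_, hw⟩) ⟨AddSubgroup.mem_top _, hred⟩ m
  obtain ⟨z, hz, hzp, hzw⟩ := S.exists_red_level hF (j' + m) hw'.2
  have hpzF : S.p ^ m • z ∈ S.F := S.F.nsmul_mem hz _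
  have hdT : η (S.p ^ m • x) - S.p ^ m • z ∈ S.T := by
    refine (S.red_eq_zero (j' + m) _ (S.F.sub_mem hw hpzF) ?_).mp ?_
    · rw [smul_sub, smul_comm (S.p ^ (j' + m)) (S.p ^ m) z, hzp, smul_zero, sub_zero, pow_add,
        mul_comm, mul_smul, hj', smul_zero]
    · rw [show (⟨_, S.F.sub_mem hw hpzF⟩ : S.F) = ⟨_, hw⟩ - S.p ^ m • ⟨z, hz⟩ from
        Subtype.ext rfl, map_sub, map_nsmul S.red, hzw, hwy, sub_self]
  obtain ⟨t, ht, htd⟩ := exists_root_pow S.hp S.T S.card_T (m := j' + m)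
    (y := η (S.p ^ m • x) - S.p ^ m • z) ⟨hdT, show S.p ^ (j' + m) • (η (S.p ^ m • x) - S.p ^ m • z) = 0 by
      rw [smul_sub, smul_comm (S.p ^ (j' + m)) (S.p ^ m) z, hzp, smul_zero, sub_zero, pow_add,
        mul_comm, mul_smul, hj', smul_zero]⟩ m
  refine ⟨η x - z - t, ?_, ?_⟩
  · rw [smul_sub, smul_sub, htd, ← map_nsmul, sub_sub, add_sub_cancel, sub_self]
  · rw [map_sub, map_sub, S.F_le z hz, S.F_le t (S.T_le ht.1), sub_zero, sub_zero, hη, hxy]

end RowData

end Fermat.Agent.ToricRows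

end
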