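import Fermat.Agent.ToricRows.Reductions
import Fermat.Agent.ResidualTorsion.Classes
import Fermat.Agent.MWJ0.Instance
import Fermat.Agent.MWJ0.WeakMW
import Fermat.Agent.J0Torsion.Card
import Fermat.Agent.TameInertia.Presentation
import Fermat.Agent.SemistableRed.AllFacts

/-!
# Fixed representatives, and one element for all of inertia

A class fixed by automorphisms fixing a place has a fixed divisor. On `J₀(N)` the function of a
fixed torsion class can then be chosen with fixed series. On `p`-power torsion at `q ∥ N` a tame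
generator fixes exactly what inertia fixes, since inertia is unipotent.
-/

set_option autoImplicit false
set_option linter.unusedSectionVars false

noncomputable section

open AlgebraicCurve Fermat.Agent.FunctionFieldRR ModularCurve

namespace Fermat.Agent.ToricRows

local notation "Qbar" => AlgebraicClosure ℚ

section Generic

open Fermat.Agent.ResidualTorsion in
/-- A class fixed by automorphisms fixing the place `o` has a divisor fixed by them. -/
theorem exists_stable_divisor {L F : Type*} [Field L] [IsAlgClosed L] [Field F] [Algebra L F]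
    [IsFunctionField L F] (G : Set (SemilinearAut L F)) (o : Place L F)
    (ho : ∀ s ∈ G, s • o = o) (B : ℤ)
    (hB : ∀ D : Divisor L F, B ≤ Divisor.degree D → 0 < Module.finrank L (riemannRochSpace D))
    {x : Pic0 L F} (hx : ∀ s ∈ G, s • x = x) :
    ∃ D : Divisor.degZero (K := L) (F := F), Pic0.mk D = x ∧
      ∀ s ∈ G, s • (D : Divisor L F) = D := by
  classical
  obtain ⟨D₀, rfl⟩ := Pic0.mk_surjective x
  have hd₀ := Divisor.mem_degZero.mp D₀.2
  have hdeg : ∀ d : ℤ, Divisor.degree ((D₀ : Divisor L F) + Finsupp.single o d) = d := fun d => by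
    rw [map_add, hd₀, Divisor.degree_single, deg_eq_one]; simp
  have hex : ∃ d : ℕ,
      0 < Module.finrank L (riemannRochSpace ((D₀ : Divisor L F) + Finsupp.single o (d : ℤ))) :=
    ⟨B.toNat, hB _ (by rw [hdeg]; exact Int.self_le_toNat B)⟩
  obtain ⟨d, hspec, hmin⟩ : ∃ d : ℕ,
      (0 < Module.finrank L
        (riemannRochSpace ((D₀ : Divisor L F) + Finsupp.single o (d : ℤ)))) ∧
      ∀ e < d, Module.finrank L
        (riemannRochSpace ((D₀ : Divisor L F) + Finsupp.single o (e : ℤ))) = 0 :=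
    ⟨Nat.find hex, Nat.find_spec hex, fun e he =>
      Nat.eq_zero_of_not_pos (Nat.find_min hex he)⟩
  set D' : Divisor L F := (D₀ : Divisor L F) + Finsupp.single o (d : ℤ) with hD'
  rcases Nat.eq_zero_or_pos d with h0 | hpos
  · refine ⟨0, ?_, fun s _ => by simp⟩
    have hpos' : 0 < Module.finrank L (riemannRochSpace (D₀ : Divisor L F)) := by
      rw [hD', h0, Nat.cast_zero, Finsupp.single_zero, add_zero] at hspec
      exact hspec
    have hne : riemannRochSpace (D₀ : Divisor L F) ≠ ⊥ := fun hb => by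
      rw [hb, finrank_bot] at hpos'; exact lt_irrefl 0 hpos'
    obtain ⟨f, hf, hf0⟩ := (Submodule.ne_bot_iff _).mp hne
    have hz : (D₀ : Divisor L F) + divisorOf f = 0 :=
      eq_zero_of_nonneg ((mem_rrs_iff_divisor hf0).mp hf)
        (by rw [map_add, hd₀, degree_divisorOf, add_zero])
    refine Eq.trans Pic0.mk_zero (Eq.symm ((QuotientAddGroup.eq_zero_iff _).mpr ?_))
    simp only [AddSubgroup.mem_addSubgroupOf]
    refine ⟨f⁻¹, inv_ne_zero hf0, fun P => ?_⟩
    have h1 := DFunLike.congr_fun hz P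
    simp only [Finsupp.add_apply, divisorOf_apply, Finsupp.zero_apply] at h1
    rw [P.ord_inv]
    omega
  have h1 : Module.finrank L (riemannRochSpace D') = 1 := by
    refine le_antisymm ?_ hspec
    have hmin' := hmin _ (Nat.sub_lt hpos one_pos)
    have hstep := finrank_le_add_single
      ((D₀ : Divisor L F) + Finsupp.single o ((d - 1 : ℕ) : ℤ)) o
    rw [add_assoc, ← Finsupp.single_add,
      show ((d - 1 : ℕ) : ℤ) + 1 = (d : ℤ) by omega, hmin', zero_add] at hstep
    exact hstep
  obtain ⟨⟨f, hf⟩, hne, hgen⟩ := finrank_eq_one_iff'.mp h1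
  have hf0 : f ≠ 0 := fun h => hne (Subtype.ext h)
  have hdegE : Divisor.degree ((D₀ : Divisor L F) + divisorOf f) = 0 := by
    rw [map_add, hd₀, degree_divisorOf, add_zero]
  refine ⟨⟨_, Divisor.mem_degZero.mpr hdegE⟩, ?_, fun s hs => ?_⟩
  · refine (QuotientAddGroup.eq).mpr ?_
    simp only [AddSubgroup.mem_addSubgroupOf, AddSubgroup.coe_add, NegMemClass.coe_neg]
    refine ⟨f⁻¹, inv_ne_zero hf0, fun P => ?_⟩
    rw [P.ord_inv, Finsupp.add_apply, Finsupp.neg_apply, Finsupp.add_apply, divisorOf_apply]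
    ring
  -- the effective member is unique
  have hfix := hx s hs
  rw [SemilinearAut.pic0_smul_mk] at hfix
  have hfix' := (QuotientAddGroup.eq).mp hfix.symm
  simp only [AddSubgroup.mem_addSubgroupOf, AddSubgroup.coe_add, NegMemClass.coe_neg,
    SemilinearAut.coe_degZeroSMulHom] at hfix'
  obtain ⟨v, hv0, hv⟩ := hfix'
  set w := v * ((s • f) / f) with hw
  have hsf : s • f ≠ 0 := (smul_ne_zero_iff_ne s).mpr hf0
  have hw0 : w ≠ 0 := mul_ne_zero hv0 (div_ne_zero hsf hf0)
  have hsD : ∀ P : Place L F,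
      (s • ((D₀ : Divisor L F) + divisorOf f) : Divisor L F) P =
        (D₀ : Divisor L F) P + P.ord f + P.ord w := fun P => by
    have h2 := hv P
    rw [Finsupp.add_apply, Finsupp.neg_apply] at h2
    rw [smul_add, smul_divisorOf, Finsupp.add_apply, divisorOf_apply, hw,
      P.ord_mul hv0 (div_ne_zero hsf hf0), ord_div P hsf hf0]
    omega
  have hmem : f * w ∈ riemannRochSpace D' := by
    rw [mem_rrs_iff_divisor (mul_ne_zero hf0 hw0)]
    intro P
    have hEff : 0 ≤ s • (D' + divisorOf f) := by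
      intro R
      obtain ⟨R', rfl⟩ : ∃ R', s • R' = R := ⟨s⁻¹ • R, smul_inv_smul _ _⟩
      rw [SemilinearAut.divisor_smul_apply_smul]
      exact ((mem_rrs_iff_divisor hf0).mp hf) R'
    have h2 := hEff P
    rw [hD', smul_add, smul_add, SemilinearAut.smul_single, ho s hs] at h2
    have h3 := hsD P
    rw [smul_add] at h3
    simp only [Finsupp.add_apply, divisorOf_apply, hD', Finsupp.zero_apply,
      P.ord_mul hf0 hw0] at h2 h3 ⊢
    omega
  obtain ⟨c, hc⟩ := hgen ⟨_, hmem⟩
  have hc' : c • f = f * w := congrArg Subtype.val hc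
  have hc0 : c ≠ 0 := fun h => mul_ne_zero hf0 hw0 (by rw [← hc', h, zero_smul])
  have hw' : w = algebraMap L F c := by
    rw [Algebra.smul_def, mul_comm (algebraMap L F c)] at hc'
    exact (mul_left_cancel₀ hf0 hc').symm
  refine Finsupp.ext fun P => ?_
  rw [hsD, hw', ord_algebraMap, add_zero, Finsupp.add_apply, divisorOf_apply]

end Generic

section Modular

variable (N : ℕ) [NeZero N]

/-- A torsion class of `J₀(N)` fixed by `H` has a function with series fixed by `H`. -/
theorem exists_fixed_function {H : Subgroup (Qbar ≃ₐ[ℚ] Qbar)} {n : ℕ} {x : JZero N}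
    (hnx : n • x = 0) (hx : ∀ σ ∈ H, σ • x = x) :
    ∃ (D : Divisor.degZero (K := Qbar) (F := modularFunctionFieldBar N))
      (u : modularFunctionFieldBar N), Pic0.mk D = x ∧ u ≠ 0 ∧
        (∀ P, P.ord u = (n : ℤ) * (D : Divisor Qbar (modularFunctionFieldBar N)) P) ∧
        ∀ σ ∈ H, arithmeticGalois (L := Qbar) (modularFunctionFieldFull N) σ • u = u := by
  classical
  have hF := SemistableRed.isFunctionField_level N
  have := Reduction.finiteDimensional_jBar N
  have := Reduction.isSeparable_jBar N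
  set St := MWJ0.modularSetup N
  obtain ⟨D, rfl, hD⟩ := exists_stable_divisor
    (G := (fun σ => arithmeticGalois (L := Qbar) (modularFunctionFieldFull N) σ) '' (H : Set _))
    (St.inf Qbar) (by rintro _ ⟨σ, -, rfl⟩; exact St.gal_smul_inf Qbar σ)
    (genusOf (Reduction.transcendental_jBar N) + 1 : ℤ)
    (fun D hD => Nat.cast_pos.mp (lt_of_lt_of_le (show (0 : ℤ) < _ by linarith)
      (riemann_inequality (Reduction.transcendental_jBar N) D)))
    (x := x) (by rintro _ ⟨σ, hσ, rfl⟩; exact hx σ hσ)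
  obtain ⟨u, hu, hu'⟩ := AddSubgroup.mem_addSubgroupOf.mp
    ((QuotientAddGroup.eq_zero_iff (n • D)).mp hnx)
  have hord : ∀ P, P.ord u = (n : ℤ) * (D : Divisor Qbar (modularFunctionFieldBar N)) P :=
    fun P => by rw [← hu' P]; simp
  -- normalise the leading coefficient
  have hus : (u : LaurentSeries Qbar) ≠ 0 := fun h => hu (Subtype.ext h)
  set l := (u : LaurentSeries Qbar).coeff (u : LaurentSeries Qbar).order with hl
  have hl0 : l ≠ 0 := mt HahnSeries.coeff_order_eq_zero.mp hus
  set v : modularFunctionFieldBar N := algebraMap Qbar _ l⁻¹ * u with hv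
  have hv0 : v ≠ 0 := mul_ne_zero ((map_ne_zero _).mpr (inv_ne_zero hl0)) hu
  have hvord : ∀ P, P.ord v = (n : ℤ) * (D : Divisor Qbar (modularFunctionFieldBar N)) P :=
    fun P => by
      rw [hv, P.ord_mul ((map_ne_zero _).mpr (inv_ne_zero hl0)) hu, ord_algebraMap, zero_add, hord]
  have hlead : ∀ c : Qbar, ((algebraMap Qbar (modularFunctionFieldBar N) c * u :
      modularFunctionFieldBar N) : LaurentSeries Qbar).coeff (u : LaurentSeries Qbar).order =
        c * l := fun c => by
    rw [MulMemClass.coe_mul, IntermediateField.coe_algebraMap_apply,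
      algebraMap_laurentSeries_eq_single, HahnSeries.coeff_single_zero_mul]
  refine ⟨D, v, rfl, hv0, hvord, fun σ hσ => ?_⟩
  have hDσ := hD _ ⟨σ, hσ, rfl⟩
  obtain ⟨c, hc⟩ := exists_algebraMap_eq_of_forall_ord_nonneg (K := Qbar)
    (f := (arithmeticGalois (L := Qbar) (modularFunctionFieldFull N) σ • v) / v) fun P => by
      have h1 := SemilinearAut.ord_smul (arithmeticGalois (L := Qbar) (modularFunctionFieldFull N) σ)
        ((arithmeticGalois (L := Qbar) (modularFunctionFieldFull N) σ)⁻¹ • P) v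
      rw [smul_inv_smul] at h1
      have h2 := DFunLike.congr_fun hDσ P
      rw [SemilinearAut.divisor_smul_apply] at h2
      rw [ord_div P ((smul_ne_zero_iff_ne _).mpr hv0) hv0, h1, hvord, hvord, h2, sub_self]
  rw [div_eq_iff hv0] at hc
  have hcoeff := congrArg (fun z : modularFunctionFieldBar N =>
    (z : LaurentSeries Qbar).coeff (u : LaurentSeries Qbar).order) hc
  simp only [coe_arithmeticGalois_smul, coeffMap_coeff] at hcoeff
  rw [hv, ← mul_assoc, ← map_mul, hlead, hlead, inv_mul_cancel₀ hl0, map_one, mul_assoc,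
    inv_mul_cancel₀ hl0, mul_one] at hcoeff
  rw [hc, ← hcoeff, map_one, one_mul]

theorem finite_killed {n : ℕ} (hn : n ≠ 0) : {x : JZero N | n • x = 0}.Finite := by
  have : NeZero n := ⟨hn⟩
  have h : Finite (Pic0.torsion Qbar (modularFunctionFieldBar N) n) :=
    Nat.finite_of_card_ne_zero (by
      rw [J0Torsion.natCard_torsion']; exact pow_ne_zero _ hn)
  refine Set.Finite.subset (Set.toFinite ((Pic0.torsion Qbar (modularFunctionFieldBar N) n :
    AddSubgroup (JZero N)) : Set (JZero N))) fun x hx => ?_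
  rw [SetLike.mem_coe, Pic0.mem_torsion, natCast_zsmul]
  exact hx

/-- The points killed by `n` are fixed by the automorphisms fixing some number field. -/
theorem exists_field_fixing_killed {n : ℕ} (hn : n ≠ 0) :
    ∃ F₀ : IntermediateField ℚ Qbar, FiniteDimensional ℚ F₀ ∧
      ∀ σ ∈ F₀.fixingSubgroup, ∀ x : JZero N, n • x = 0 → σ • x = x := by
  have := (finite_killed N hn).to_subtype
  choose F hF hfix using fun x : {x : JZero N | n • x = 0} =>
    (MWJ0.modularSetup N).exists_field_fixing x.1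
  have := hF
  exact ⟨⨆ x, F x, inferInstance, fun σ hσ x hx => hfix ⟨x, hx⟩ σ
    (IntermediateField.fixingSubgroup_antitone (le_iSup F ⟨x, hx⟩) hσ)⟩

theorem gal_nsmul (σ : Qbar ≃ₐ[ℚ] Qbar) (n : ℕ) (x : JZero N) : σ • (n • x) = n • (σ • x) :=
  map_nsmul (DistribSMul.toAddMonoidHom _ σ) n x

theorem gal_zero (σ : Qbar ≃ₐ[ℚ] Qbar) : σ • (0 : JZero N) = 0 :=
  map_zero (DistribSMul.toAddMonoidHom (JZero N) σ)

theorem gal_sub (σ : Qbar ≃ₐ[ℚ] Qbar) (x y : JZero N) : σ • (x - y) = σ • x - σ • y :=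
  map_sub (DistribSMul.toAddMonoidHom _ σ) x y

theorem gal_add (σ : Qbar ≃ₐ[ℚ] Qbar) (x y : JZero N) : σ • (x + y) = σ • x + σ • y :=
  map_add (DistribSMul.toAddMonoidHom _ σ) x y

end Modular

/-- On `p`-power torsion of `J₀(M q)` what a tame generator fixes is fixed by inertia. -/
theorem fixed_of_tameGenerator {M q p : ℕ} [NeZero M] [Fact q.Prime] (hqM : ¬ q ∣ M)
    (hp : p.Prime) (hpq : p ≠ q) {A : ValuationSubring Qbar} (hA : A.LiesOverPrime q)
    {σ₀ : Qbar ≃ₐ[ℚ] Qbar} (hσ₀ : TameInertia.IsTameGenerator A p q σ₀) {m : ℕ}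
    {x : JZero (M * q)} (hx : p ^ m • x = 0) (hfix : σ₀ • x = x)
    {σ : Qbar ≃ₐ[ℚ] Qbar} (hσ : σ ∈ A.inertiaSubgroupIn ℚ) : σ • x = x := by
  classical
  have : NeZero (M * q) := ⟨mul_ne_zero (NeZero.ne M) (Fact.out : q.Prime).ne_zero⟩
  obtain ⟨F₀, hF₀, hF₀fix⟩ := exists_field_fixing_killed (M * q) (n := p ^ m)
    (pow_ne_zero _ hp.ne_zero)
  let ρ : (Qbar ≃ₐ[ℚ] Qbar) →* Equiv.Perm {y : JZero (M * q) // p ^ m • y = 0} :=
    { toFun := fun τ =>
        { toFun := fun y => ⟨τ • (y : JZero (M * q)), by rw [← gal_nsmul, y.2, gal_zero]⟩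
          invFun := fun y => ⟨τ⁻¹ • (y : JZero (M * q)), by rw [← gal_nsmul, y.2, gal_zero]⟩
          left_inv := fun y => Subtype.ext (inv_smul_smul τ _)
          right_inv := fun y => Subtype.ext (smul_inv_smul τ _) }
      map_one' := Equiv.ext fun y => Subtype.ext (one_smul _ _)
      map_mul' := fun τ τ' => Equiv.ext fun y => Subtype.ext (mul_smul τ τ' _) }
  have hexp : ∀ τ, τ ∈ A.inertiaSubgroupIn ℚ → ρ τ ^ p ^ m = 1 := by
    intro τ hτ
    rw [← map_pow]
    refine Equiv.ext fun y => Subtype.ext ?_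
    show τ ^ p ^ m • (y : JZero (M * q)) = y
    have hcop : (p ^ m).Coprime q :=
      Nat.Coprime.pow_left _ ((Nat.coprime_primes hp Fact.out).mpr hpq)
    have hu := SemistableRed.inertiaUnipotent_of_facts hqM
      (fun B hB => SemistableRed.goodReductionFacts M q hqM B hB) A hA τ hτ (p ^ m) hcop
      (y : JZero (M * q)) y.2
    have key : ∀ j : ℕ, τ ^ j • (y : JZero (M * q)) = y + j • (τ • (y : JZero (M * q)) - y) := by
      intro j
      induction j with
      | zero => simp
      | succ j ih =>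
        rw [pow_succ', mul_smul, ih, gal_add, gal_nsmul, succ_nsmul]
        have h2 : τ • (τ • (y : JZero (M * q)) - y) = τ • (y : JZero (M * q)) - y := by
          rw [gal_sub, ← sub_eq_zero]
          refine Eq.trans ?_ hu
          abel
        rw [h2]
        abel
    rw [key, nsmul_sub, ← gal_nsmul, y.2, gal_zero, sub_self, add_zero]
  obtain ⟨j, hj⟩ := TameInertia.exists_eq_pow_tameGenerator hp (Fact.out : q.Prime) hpq hA
    (MonoidHom.id _) (ρ := ρ) ⟨F₀, hF₀, fun τ hτ => by
      rw [MonoidHom.mem_ker]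
      exact Equiv.ext fun y => Subtype.ext (hF₀fix τ hτ _ y.2)⟩ (k := m) hexp hσ₀ hσ
  have hfixρ : ρ σ₀ ⟨x, hx⟩ = ⟨x, hx⟩ := Subtype.ext hfix
  have hpow : ∀ j : ℕ, (ρ σ₀ ^ j) ⟨x, hx⟩ = ⟨x, hx⟩ := by
    intro j
    induction j with
    | zero => rfl
    | succ j ih => rw [pow_succ, Equiv.Perm.mul_apply, hfixρ, ih]
  have := congrArg (fun e : Equiv.Perm {y : JZero (M * q) // p ^ m • y = 0} =>
    ((e ⟨x, hx⟩ : {y : JZero (M * q) // p ^ m • y = 0}) : JZero (M * q))) hj
  simp only [hpow] at this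
  exact this

end Fermat.Agent.ToricRows

end
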