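import Fermat.Agent.ToricRows.FixedRep
import Fermat.Agent.ResidualTorsion.Modular
import Fermat.Agent.MWJ0.DivisibleAll
import Fermat.Agent.MazurPrinciple.HorizFixed
import Fermat.Agent.MazurPrinciple.LocalLaw
import Fermat.Agent.LevelP.Inst.UnitGeometry
import Fermat.Agent.SemistableRed.Twisted

/-!
# The two exact rows for `X₀(M q)` at a prime `p ≠ q`

When the elliptic points do not contribute (`12` times the number of double points is
`(q - 1) ψ(M)`) every double point has exponent one. The law at the double points and at the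
smooth points then gives the hypotheses of the rows.
-/

set_option autoImplicit false
set_option linter.unusedSectionVars false

noncomputable section

open IsLocalRing AlgebraicCurve ModularCurve Fermat.Agent.FunctionFieldRR
  Fermat.Agent.Reduction Fermat.Agent.SemistableRed Fermat.Agent.MazurPrinciple

namespace Fermat.Agent.ToricRows

local notation "Qbar" => AlgebraicClosure ℚ

variable {A : ValuationSubring Qbar} {M q : ℕ} [NeZero M] [NeZero q] [Fact q.Prime]
  [CharP (ResidueField A) q] [IsAlgClosed (ResidueField A)] (S : Setting A M q)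

local notation "gal" => arithmeticGalois (L := AlgebraicClosure ℚ) (modularFunctionFieldFull (M * q))

variable [IsFunctionField Qbar (modularFunctionFieldBar (M * q))]
  [IsFunctionField (ResidueField A) (modularFunctionFieldFullC (ResidueField A) M)]

/-- The genus of the components is the genus of `X₀(M)`. -/
theorem gG_eq : S.facts.choose = (genus0 M : ℤ) := by
  have : CharP (modularFunctionFieldFullC (ResidueField A) M) q :=
    charP_of_injective_algebraMap (algebraMap (ResidueField A) _).injective q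
  obtain ⟨P⟩ := LevelP.Descent.exists_place (LevelP.descent S)
  have h1 := S.facts.choose_spec
  have h2 := IgusaGenus.reductionFacts (N := M) S.not_dvd S.above
  obtain ⟨c1, hc1⟩ := h1.genus_le
  obtain ⟨c2, hc2⟩ := h2.genus_le
  set D : Divisor (ResidueField A) (modularFunctionFieldFullC (ResidueField A) M) :=
    Finsupp.single P (max c1 c2) with hD
  have hdeg : Divisor.degree D = max c1 c2 := by
    rw [hD, Divisor.degree_single, deg_eq_one]; simp
  have a1 := h1.charL.riemann D
  have a2 := h2.charL.riemann D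
  have a3 := hc1 D (hdeg ▸ le_max_left _ _)
  have a4 := hc2 D (hdeg ▸ le_max_right _ _)
  linarith

/-- The number of double points. -/
theorem card_pairs_eq :
    (S.splitModel.pairs.card : ℤ) = genus0 (M * q) + 1 - 2 * genus0 M := by
  rw [← S.splitModel.delta_eq_card, SplitModel.delta,
    show S.splitModel.gG = S.facts.choose from rfl, gG_eq S]
  rfl

section Law

variable (hcount : 12 * ((genus0 (M * q) : ℤ) + 1 - 2 * genus0 M) = ((q : ℤ) - 1) * dedekindPsi M)

include hcount in
theorem pairs_nonempty : S.splitModel.pairs.Nonempty := by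
  rw [← Finset.card_pos]
  have h := card_pairs_eq S
  have h2 : (0 : ℤ) < ((q : ℤ) - 1) * dedekindPsi M := by
    have := S.prime.two_le
    exact mul_pos (by omega) (by exact_mod_cast dedekindPsi_pos M)
  omega

include hcount in
/-- All pairs have exponent one, whatever the unit and the local data. -/
theorem pairData_e_eq_one (U : LevelP.LevelUnit S) {x} (hx : x ∈ S.splitModel.pairs)
    (T₁ : LevelP.PairData (LevelP.descent S).glueData (LevelP.descent S).W
      (LevelP.DVPoint.ofPlace x.1) (LevelP.DVPoint.ofPlace x.2)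
      ⟨U.w, LevelP.unit_mem_fixed S U⟩ 12) : T₁.e = 1 := by
  classical
  have : CharP (modularFunctionFieldFullC (ResidueField A) M) q :=
    charP_of_injective_algebraMap (algebraMap (ResidueField A) _).injective q
  obtain ⟨h1, h2⟩ := LevelP.unit_inLat S U
  set Δ := LevelP.descent S with hΔ
  let w : Δ.F₀ := ⟨U.w, LevelP.unit_mem_fixed S U⟩
  have hcoe : ((w * ((q : Δ.F₀) ^ 12)⁻¹ : Δ.F₀) : modularFunctionFieldBar (M * q)) =
      U.w * ((q : modularFunctionFieldBar (M * q)) ^ 12)⁻¹ := by push_cast; rfl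
  have hint : S.splitModel.Int 1 ((w * ((q : Δ.F₀) ^ 12)⁻¹ : Δ.F₀) :
      modularFunctionFieldBar (M * q)) := by rw [hcoe]; exact U.int1_div
  have hred : Δ.glueData.redF 1 (w * ((q : Δ.F₀) ^ 12)⁻¹) =
      S.splitModel.red 1 (U.w * ((q : modularFunctionFieldBar (M * q)) ^ 12)⁻¹) := by
    rw [Δ.glueData_redF hint, hcoe]
  have hred0 : Δ.glueData.redF 0 w = S.splitModel.red 0 U.w :=
    Δ.glueData_redF (f := w) (U.int 0)
  have hne1 : Δ.glueData.redF 1 (w * ((q : Δ.F₀) ^ 12)⁻¹) ≠ 0 := hred ▸ U.red1_div_ne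
  have hq : (q : Δ.F₀) ≠ 0 := fun h => Δ.natCast_F_ne (by
    have := congrArg Subtype.val h; push_cast at this; exact this)
  have hw : w ≠ 0 := fun h => U.ne_zero (congrArg Subtype.val h)
  obtain ⟨g0, g0'⟩ := gv_of_red_ne Δ.glueData hq (i := 0) (f := w) (U.int 0)
    (hred0 ▸ U.red0_ne)
  obtain ⟨g1, g1'⟩ := gv_eq Δ.glueData hq (i := 1) (f := w) (m := 12) hint hne1 (by
    rw [show ((12 : ℤ)) = ((12 : ℕ) : ℤ) from rfl, zpow_natCast, mul_assoc,
      inv_mul_cancel₀ (pow_ne_zero _ hq), mul_one])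
  have hT : ∀ x ∈ S.splitModel.pairs, Nonempty (LevelP.PairData Δ.glueData Δ.W
      (LevelP.DVPoint.ofPlace x.1) (LevelP.DVPoint.ofPlace x.2) w 12) := fun x hx =>
    Δ.nonempty_pairData hx (by norm_num) h1 h2 U.red0_ne ⟨hint, hne1⟩
  have hweight : ∀ x (hx : x ∈ S.splitModel.pairs),
      ((hT x hx).some.e : ℤ) * x.1.ord (S.splitModel.red 0 U.w) = 12 ∧
      x.1.ord (S.splitModel.red 0 U.w) +
        x.2.ord (S.splitModel.red 1 (U.w * ((q : modularFunctionFieldBar (M * q)) ^ 12)⁻¹)) = 0 := by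
    intro x hx
    set T := (hT x hx).some
    have e0 : go Δ.glueData (LevelP.DVPoint.ofPlace x.1) 0 w =
        x.1.ord (S.splitModel.red 0 U.w) := by
      rw [go, g0', LevelP.ofPlace_ord, hred0]
    have e1 : go Δ.glueData (LevelP.DVPoint.ofPlace x.2) 1 w =
        x.2.ord (S.splitModel.red 1 (U.w * ((q : modularFunctionFieldBar (M * q)) ^ 12)⁻¹)) := by
      rw [go, g1', LevelP.ofPlace_ord, hred]
    have hwt := weight_eq T hq hw
    rw [e0, g0, g1, sub_zero] at hwt
    refine ⟨hwt, ?_⟩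
    set z := x.1.ord (S.splitModel.red 0 U.w) +
      x.2.ord (S.splitModel.red 1 (U.w * ((q : modularFunctionFieldBar (M * q)) ^ 12)⁻¹))
    have hdvd : T.e ∣ 12 := by exact_mod_cast (show (T.e : ℤ) ∣ 12 from ⟨_, hwt.symm⟩)
    obtain ⟨-, h⟩ := node_law T hq (n := 12 * (z.natAbs + 1) + 1) (Nat.succ_pos _)
      (Nat.Coprime.coprime_dvd_right hdvd (by
        rw [Nat.coprime_iff_gcd_eq_one, Nat.gcd_comm, Nat.add_comm, Nat.gcd_add_mul_left_right,
          Nat.gcd_one_right])) hw (HorizPow.of_unit T.w_mem T.w_dual_mem hq)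
    rw [e0, e1] at h
    exact Int.eq_zero_of_dvd_of_natAbs_lt_natAbs h (by rw [Int.natAbs_natCast]; omega)
  have hle : ∀ x ∈ S.splitModel.pairs, x.1.ord (S.splitModel.red 0 U.w) ≤ 12 := fun x hx => by
    obtain ⟨h, -⟩ := hweight x hx
    have := Int.natCast_pos.mpr (hT x hx).some.e_pos
    nlinarith
  have hsum : ∑ x ∈ S.splitModel.pairs, x.1.ord (S.splitModel.red 0 U.w) =
      ∑ _x ∈ S.splitModel.pairs, (12 : ℤ) := by
    have := LevelP.sum_pairs_unit S U
    rw [Finset.sum_congr rfl fun x hx =>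
      show x.2.ord (S.splitModel.red 1 (U.w * ((q : modularFunctionFieldBar (M * q)) ^ 12)⁻¹)) =
        -x.1.ord (S.splitModel.red 0 U.w) by have := (hweight x hx).2; omega,
      Finset.sum_neg_distrib, neg_inj] at this
    rw [this, Finset.sum_const, nsmul_eq_mul, card_pairs_eq S, ← hcount]
    ring
  have h12 := (Finset.sum_eq_sum_iff_of_le hle).mp hsum x hx
  have e0 : go Δ.glueData (LevelP.DVPoint.ofPlace x.1) 0 w =
      x.1.ord (S.splitModel.red 0 U.w) := by
    rw [go, g0', LevelP.ofPlace_ord, hred0]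
  have h := weight_eq T₁ hq hw
  rw [e0, g0, g1, sub_zero, h12] at h
  omega

include hcount in
/-- All pairs have exponent one, with the unit fixed. -/
theorem exists_pairData :
    ∀ x ∈ S.splitModel.pairs, ∃ (w : (LevelP.descent S).F₀)
      (T : LevelP.PairData (LevelP.descent S).glueData (LevelP.descent S).W
        (LevelP.DVPoint.ofPlace x.1) (LevelP.DVPoint.ofPlace x.2) w 12), T.e = 1 := by
  intro x hx
  obtain ⟨U⟩ := LevelP.nonempty_levelUnit S
  obtain ⟨h1, h2⟩ := LevelP.unit_inLat S U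
  have : CharP (modularFunctionFieldFullC (ResidueField A) M) q :=
    charP_of_injective_algebraMap (algebraMap (ResidueField A) _).injective q
  set Δ := LevelP.descent S with hΔ
  have hint : S.splitModel.Int 1 (((⟨U.w, LevelP.unit_mem_fixed S U⟩ : Δ.F₀) *
      ((q : Δ.F₀) ^ 12)⁻¹ : Δ.F₀) : modularFunctionFieldBar (M * q)) := by
    push_cast; exact U.int1_div
  obtain ⟨T⟩ := Δ.nonempty_pairData hx (w := ⟨U.w, LevelP.unit_mem_fixed S U⟩) (by norm_num) h1 h2
    U.red0_ne ⟨hint, by
      rw [Δ.glueData_redF hint]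
      push_cast
      exact U.red1_div_ne⟩
  exact ⟨_, T, pairData_e_eq_one S hcount U hx T⟩

include hcount in
/-- The law at the double points for the monodromy of a tame generator. -/
theorem pairLaw {p : ℕ} (hp : p.Prime) (hpq : p ≠ q) {σ₀ : Qbar ≃ₐ[ℚ] Qbar}
    (hσ₀ : TameInertia.IsTameGenerator A p q σ₀) : PairLaw S.splitModel p (gal σ₀) := by
  classical
  have : CharP (modularFunctionFieldFullC (ResidueField A) M) q :=
    charP_of_injective_algebraMap (algebraMap (ResidueField A) _).injective q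
  intro m x d hfix
  have : Algebra.IsAlgebraic ℚ Qbar := AlgebraicClosure.isAlgebraic ℚ
  set Δ := LevelP.descent S with hΔ
  obtain ⟨D, u, hD, hu, hord, hGu⟩ := exists_fixed_function (M * q)
    (H := A.inertiaSubgroupIn ℚ) d.nsmul_eq_zero fun σ hσ =>
      fixed_of_tameGenerator S.not_dvd hp hpq S.above hσ₀ d.nsmul_eq_zero hfix hσ
  have humem : u ∈ Δ.F₀ := LevelP.mem_fixed_iff.mpr (LevelP.inertiaFixedSeries_iff.mpr
    fun σ hσ => congrArg Subtype.val (hGu σ hσ))
  have hq : (q : Δ.F₀) ≠ 0 := fun h => Δ.natCast_F_ne (by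
    have := congrArg Subtype.val h; push_cast at this; exact this)
  have hu0 : (⟨u, humem⟩ : Δ.F₀) ≠ 0 := fun h => hu (congrArg Subtype.val h)
  -- the divisor is stable
  have hDfix : ∀ σ ∈ A.inertiaSubgroupIn ℚ, ∀ P,
      (D : Divisor Qbar (modularFunctionFieldBar (M * q))) (gal σ • P) =
        (D : Divisor Qbar (modularFunctionFieldBar (M * q))) P := by
    intro σ hσ P
    have h1 := SemilinearAut.ord_smul (gal σ) P u
    rw [hGu σ hσ, hord, hord] at h1
    exact mul_left_cancel₀ (by exact_mod_cast pow_ne_zero m hp.ne_zero) h1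
  have hst : ∀ j : ℕ, LevelP.Stable Δ.act (riemannRochSpace ((j : ℤ) • S.splitModel.H -
      (D : Divisor Qbar (modularFunctionFieldBar (M * q))))) := by
    intro j
    rintro _ ⟨σ, hσ, rfl⟩ f hf
    show gal σ • f ∈ _
    rw [SemistableRed.mem_rrs_iff] at hf ⊢
    refine hf.imp (fun e => by rw [e, smul_zero]) fun h P => ?_
    obtain ⟨P', rfl⟩ := MulAction.surjective (gal σ) P
    rw [SemilinearAut.ord_smul]
    have := h P'
    simp only [Finsupp.sub_apply, Finsupp.smul_apply, smul_eq_mul] at this ⊢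
    rw [hDfix σ hσ]
    show -((j : ℤ) * S.polesH (gal σ • P') - _) ≤ _
    rw [S.polesH_galois]
    exact this
  have hpow : ∀ R : Subring Δ.F₀, Δ.W ≤ R → HorizPow R q (p ^ m) ⟨u, humem⟩ := fun R hR =>
    horizPow_of_div Δ hR hu0 _ hord hst
  -- normalisations
  choose c hc hcr using fun i => S.splitModel.normalise i u hu
  let d₀ : Datum S.splitModel p m x := ⟨D, u, c, hD, hu, hord, hc, hcr⟩
  have hgo : ∀ i P, d₀.redOrd i P = go Δ.glueData (LevelP.DVPoint.ofPlace P) i ⟨u, humem⟩ := by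
    intro i P
    obtain ⟨hz, hzr⟩ := gred_spec Δ.glueData (i := i) hu0
    rw [go, LevelP.ofPlace_ord]
    rw [gred, Δ.glueData_redF hz] at hzr ⊢
    set g := gv Δ.glueData i (⟨u, humem⟩ : Δ.F₀)
    have hcast : (((⟨u, humem⟩ * (q : Δ.F₀) ^ (-g) : Δ.F₀)) :
        modularFunctionFieldBar (M * q)) = ((q : Qbar) ^ (-g)) • u := by
      rw [LevelP.Descent.zpow_natCast_smul, show ∀ z : Δ.F₀, (z : modularFunctionFieldBar (M * q)) =
        Δ.F₀.subtype z from fun _ => rfl, map_mul, map_zpow₀, map_natCast]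
      exact mul_comm _ _
    change S.splitModel.Int i _ at hz
    rw [hcast] at hz hzr ⊢
    have hc0 : c i ≠ 0 := fun h => hcr i (by rw [h, zero_smul, S.splitModel.red_zero])
    obtain ⟨b, hb, hb'⟩ := red_eq_const_mul S.splitModel (((q : Qbar) ^ (-g)) / c i)
      (x := c i • u) (y := ((q : Qbar) ^ (-g)) • u) (by rw [smul_smul, div_mul_cancel₀ _ hc0])
      (hc i) (hcr i) hz hzr
    rw [hb', P.ord_mul ((map_ne_zero _).mpr hb) (hcr i), ord_algebraMap, zero_add]
    rfl
  have hn : 0 < p ^ m := pow_pos hp.pos m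
  have hswap : ∀ (i : Fin 2) (P : Place (ResidueField A) (modularFunctionFieldFullC
      (ResidueField A) M)) (z : ℤ), ((p ^ m : ℕ) : ℤ) ∣ d₀.redOrd i P + z →
        ((p ^ m : ℕ) : ℤ) ∣ d.redOrd i P + z := by
    intro i P z hz
    obtain ⟨g, -, hg⟩ := d₀.exists_divisor hp.ne_zero d i
    rw [hg, add_right_comm]
    exact dvd_add hz (dvd_mul_right _ _)
  set τ : ℤ := gv Δ.glueData 1 (⟨u, humem⟩ : Δ.F₀) - gv Δ.glueData 0 (⟨u, humem⟩ : Δ.F₀)
  have hnode : ∀ P Q, S.splitModel.Pair P Q →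
      ((p ^ m : ℕ) : ℤ) ∣ d₀.redOrd 0 P - τ ∧ ((p ^ m : ℕ) : ℤ) ∣ d₀.redOrd 1 Q + τ := by
    intro P Q hPQ
    obtain ⟨w, T, he⟩ := exists_pairData S hcount (P, Q) (S.splitModel.mem_pairs.mpr hPQ)
    obtain ⟨h1, h2⟩ := node_law T hq hn (by rw [he]; exact Nat.coprime_one_right _) hu0
      (hpow _ T.W_le)
    rw [he, Nat.cast_one, one_mul, ← hgo] at h1
    rw [← hgo, ← hgo] at h2
    refine ⟨h1, ?_⟩
    have := dvd_sub h2 h1
    rwa [show d₀.redOrd 0 P + d₀.redOrd 1 Q - (d₀.redOrd 0 P - τ) = d₀.redOrd 1 Q + τ by ring]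
      at this
  have hsmooth : ∀ (i : Fin 2) P, P ∉ LevelP.Descent.pairPoints S.splitModel i →
      ((p ^ m : ℕ) : ℤ) ∣ d₀.redOrd i P := by
    intro i P hP
    rw [hgo]
    exact smooth_law (Δ.smoothData hP) hq hn hu0 (hpow _ (Δ.smoothData hP).W_le)
  refine ⟨τ, fun P ⟨Q, hPQ⟩ => ?_, fun Q ⟨P, hPQ⟩ => hswap 1 Q τ (hnode P Q hPQ).2,
    fun P hP => ?_, fun Q hQ => ?_⟩
  · have := hswap 0 P (-τ) (by rw [← sub_eq_add_neg]; exact (hnode P Q hPQ).1)
    rwa [← sub_eq_add_neg] at this
  · have := hswap 0 P 0 (by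
      rw [add_zero]
      exact hsmooth 0 P fun h => hP (by
        obtain ⟨y, hy, rfl⟩ := Finset.mem_image.mp (show P ∈ _ from h)
        exact ⟨y.2, S.splitModel.mem_pairs.mp hy⟩))
    rwa [add_zero] at this
  · have := hswap 1 Q 0 (by
      rw [add_zero]
      exact hsmooth 1 Q fun h => hQ (by
        obtain ⟨y, hy, rfl⟩ := Finset.mem_image.mp (show Q ∈ _ from h)
        exact ⟨y.1, S.splitModel.mem_pairs.mp hy⟩))
    rwa [add_zero] at this

end Law

/-- The torsion of `J₀(N)` of level `p ^ m`, counted. -/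
theorem natCard_lev_top (N : ℕ) [NeZero N] {p : ℕ} (hp : p.Prime) (m : ℕ) :
    Nat.card (lev p (⊤ : AddSubgroup (JZero N)) m) = p ^ (m * (2 * genus0 N)) := by
  have : NeZero (p ^ m) := ⟨pow_ne_zero _ hp.ne_zero⟩
  rw [ResidualTorsion.two_mul_genus0_eq_rank, pow_mul, ← J0Torsion.natCard_torsion' N (p ^ m)]
  refine Nat.card_congr (Equiv.subtypeEquivRight fun x => ?_)
  rw [Pic0.mem_torsion, natCast_zsmul]
  exact ⟨fun h => lev_smul h, fun h => ⟨AddSubgroup.mem_top _, h⟩⟩

include S in
/-- The torsion of the special fibre of level `p ^ m`, counted. -/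
theorem natCard_lev_residual {p : ℕ} (hp : p.Prime) (hpq : p ≠ q) (m : ℕ) :
    Nat.card (lev p (⊤ : AddSubgroup (JZeroC (ResidueField A) M)) m) =
      p ^ (m * (2 * genus0 M)) := by
  rw [← natCard_lev_top M hp m]
  have h := ResidualTorsion.reductionModL_bijOn S.not_dvd S.above hp hpq
    (fun x => MWJ0.jZero_divisible M hp.ne_zero x) m
  exact (Nat.card_congr (((Equiv.subtypeEquivRight fun x =>
    ⟨fun h => lev_smul h, fun h => ⟨AddSubgroup.mem_top _, h⟩⟩).trans h.equiv).trans
      (Equiv.subtypeEquivRight fun x =>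
        ⟨fun h => ⟨AddSubgroup.mem_top _, h⟩, fun h => lev_smul h⟩))).symm

/-- **The rows hold** for a tame generator. -/
theorem rowHyp (hcount : 12 * ((genus0 (M * q) : ℤ) + 1 - 2 * genus0 M) =
      ((q : ℤ) - 1) * dedekindPsi M) {p : ℕ} (hp : p.Prime) (hpq : p ≠ q)
    {σ₀ : Qbar ≃ₐ[ℚ] Qbar} (hσ₀ : TameInertia.IsTameGenerator A p q σ₀) :
    RowHyp S.splitModel p (gal σ₀) (1 : SemilinearAut (ResidueField A)
      (modularFunctionFieldFullC (ResidueField A) M)) (2 * genus0 M) := by
  have hpk : (p : ResidueField A) ≠ 0 := by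
    rw [Ne, CharP.cast_eq_zero_iff (ResidueField A) q]
    exact fun h => hpq ((Nat.prime_dvd_prime_iff_eq S.prime hp).mp h).symm
  obtain ⟨⟨s, hs⟩, hker, hs'⟩ := hσ₀.1
  have hc := S.compatible (σ := s) hs (RingHom.id _)
    (fun a => (ResidueField.residue_smul _ (⟨s, hs⟩ : A.decompositionSubgroup ℚ) a).trans
      (RingEquiv.congr_fun (MonoidHom.mem_ker.1 hker) _))
    1 (fun z => by rw [one_smul, coeffMap_id]) (e := 1)
    (fun c => by rw [SemilinearAut.baseAut_one, pow_one]; rfl)
  refine ⟨hp, hpk, ?_, fun z => one_smul _ z, pairLaw S hcount hp hpq hσ₀,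
    pairs_nonempty S hcount, fun m => ?_, natCard_lev_residual S hp hpq⟩
  · subst hs'; exact hc
  · refine (natCard_lev_top (M * q) hp m).trans ?_
    have h1 := card_pairs_eq S
    have h2 := Finset.card_pos.mpr (pairs_nonempty S hcount)
    congr 2
    omega

end Fermat.Agent.ToricRows

end
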