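import Fermat.Agent.ToricRows.Toric
import Fermat.Agent.SemistableRed.Equivariance
import Mathlib.Data.ZMod.Basic
import Mathlib.GroupTheory.SpecificGroups.Cyclic

/-!
# The reductions of a fixed torsion class, and the two exact rows

For a torsion class with function `u`, the divisors of the two reductions of `u`, when divisible
by the order, give a pair of classes on the special fibre; the kernel consists of the toric
classes. If the failure of divisibility is governed by one integer then counting makes both rows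
exact.
-/

set_option autoImplicit false
set_option linter.unusedSectionVars false

noncomputable section

open AlgebraicCurve Fermat.Agent.FunctionFieldRR Fermat.Agent.SemistableRed
  Fermat.Agent.SemistableRed.SplitModel

namespace Fermat.Agent.ToricRows

variable {L : Type*} [Field L] [IsAlgClosed L] {A : ValuationSubring L} {k : Type*} [Field k]
  [IsAlgClosed k] {π : A →+* k} {F : Type*} [Field F] [Algebra L F] [IsFunctionField L F]
  {G : Type*} [Field G] [Algebra k G] [IsFunctionField k G]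
variable (S : SplitModel A π F G)

/-- Two normalisations of proportional functions have proportional reductions. -/
theorem red_eq_const_mul {i : Fin 2} {x y : F} (l : L) (h : y = l • x) (hx : S.Int i x)
    (hx0 : S.red i x ≠ 0) (hy : S.Int i y) (hy0 : S.red i y ≠ 0) :
    ∃ b : k, b ≠ 0 ∧ S.red i y = algebraMap k G b * S.red i x := by
  have hl0 : l ≠ 0 := fun h0 => hy0 (by rw [h, h0, zero_smul, S.red_zero])
  rcases A.mem_or_inv_mem l with hl | hl
  · refine ⟨π ⟨l, hl⟩, fun h0 => hy0 ?_, ?_⟩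
    · rw [h, S.red_smul i l x hl hx, h0, zero_smul]
    · rw [h, S.red_smul i l x hl hx, Algebra.smul_def]
  · have hx' : x = l⁻¹ • y := by rw [h, smul_smul, inv_mul_cancel₀ hl0, one_smul]
    have e := S.red_smul i l⁻¹ y hl hy
    rw [← hx'] at e
    have hb : π ⟨l⁻¹, hl⟩ ≠ 0 := fun h0 => hx0 (by rw [e, h0, zero_smul])
    refine ⟨(π ⟨l⁻¹, hl⟩)⁻¹, inv_ne_zero hb, ?_⟩
    rw [e, Algebra.smul_def, ← mul_assoc, ← map_mul, inv_mul_cancel₀ hb, map_one, one_mul]

/-- The data of a torsion class: a divisor, a function with `p ^ m` times that divisor, and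
normalisations on both components. -/
structure Datum (p m : ℕ) (x : Pic0 L F) where
  D : Divisor.degZero (K := L) (F := F)
  u : F
  c : Fin 2 → L
  mk_D : Pic0.mk D = x
  u_ne : u ≠ 0
  ord_u : ∀ P : Place L F, P.ord u = ((p ^ m : ℕ) : ℤ) * (D : Divisor L F) P
  int : ∀ i, S.Int i (c i • u)
  red_ne : ∀ i, S.red i (c i • u) ≠ 0

namespace Datum

variable {S} {p m : ℕ} {x x' : Pic0 L F}

/-- The order of the reduction at a place of one component. -/
def redOrd (d : Datum S p m x) (i : Fin 2) (P : Place k G) : ℤ := P.ord (S.red i (d.c i • d.u))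

/-- The data at a higher order. -/
def raise (d : Datum S p m x) (j : ℕ) : Datum S p (m + j) x where
  D := d.D
  u := d.u ^ p ^ j
  c i := d.c i ^ p ^ j
  mk_D := d.mk_D
  u_ne := pow_ne_zero _ d.u_ne
  ord_u P := by rw [ord_pow, d.ord_u, pow_add]; push_cast; ring
  int i := by rw [← smul_pow]; exact S.int_pow (d.int i) _
  red_ne i := by rw [← smul_pow, S.red_pow (d.int i)]; exact pow_ne_zero _ (d.red_ne i)

theorem redOrd_raise (d : Datum S p m x) (j : ℕ) (i : Fin 2) (P : Place k G) :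
    (d.raise j).redOrd i P = ((p ^ j : ℕ) : ℤ) * d.redOrd i P := by
  show P.ord (S.red i ((d.c i ^ p ^ j) • d.u ^ p ^ j)) = _
  rw [← smul_pow, S.red_pow (d.int i), ord_pow]
  rfl

/-- The product of two data. -/
def mul (d : Datum S p m x) (d' : Datum S p m x') : Datum S p m (x + x') where
  D := d.D + d'.D
  u := d.u * d'.u
  c i := d.c i * d'.c i
  mk_D := by rw [Pic0.mk_add, d.mk_D, d'.mk_D]
  u_ne := mul_ne_zero d.u_ne d'.u_ne
  ord_u P := by
    rw [P.ord_mul d.u_ne d'.u_ne, d.ord_u, d'.ord_u, AddSubgroup.coe_add, Finsupp.add_apply]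
    ring
  int i := (S.mul_int_smul (d.int i) (d'.int i)).1
  red_ne i := by
    rw [(S.mul_int_smul (d.int i) (d'.int i)).2]
    exact mul_ne_zero (d.red_ne i) (d'.red_ne i)

theorem redOrd_mul (d : Datum S p m x) (d' : Datum S p m x') (i : Fin 2) (P : Place k G) :
    (d.mul d').redOrd i P = d.redOrd i P + d'.redOrd i P := by
  show P.ord (S.red i ((d.c i * d'.c i) • (d.u * d'.u))) = _
  rw [(S.mul_int_smul (d.int i) (d'.int i)).2, P.ord_mul (d.red_ne i) (d'.red_ne i)]
  rfl

/-- The trivial datum. -/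
def one : Datum S p m (0 : Pic0 L F) where
  D := 0
  u := 1
  c _ := 1
  mk_D := Pic0.mk_zero
  u_ne := one_ne_zero
  ord_u P := by simp
  int i := by rw [one_smul]; exact S.int_one i
  red_ne i := by rw [one_smul, S.red_one]; exact one_ne_zero

theorem redOrd_one (i : Fin 2) (P : Place k G) :
    (one : Datum S p m (0 : Pic0 L F)).redOrd i P = 0 := by
  show P.ord (S.red i ((1 : L) • (1 : F))) = 0
  rw [one_smul, S.red_one, P.ord_one]

/-- Two data of a class differ by a principal divisor times the order, on each component. -/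
theorem exists_divisor (hp : p ≠ 0) (d d' : Datum S p m x) (i : Fin 2) :
    ∃ h : G, h ≠ 0 ∧
      ∀ P : Place k G, d'.redOrd i P = d.redOrd i P + ((p ^ m : ℕ) : ℤ) * P.ord h := by
  have hDD : (QuotientAddGroup.mk (d'.D - d.D) : Pic0 L F) = 0 := by
    rw [QuotientAddGroup.mk_sub]
    exact sub_eq_zero.mpr (d'.mk_D.trans d.mk_D.symm)
  have h2 := (QuotientAddGroup.eq_zero_iff _).mp hDD
  simp only [AddSubgroup.mem_addSubgroupOf] at h2
  obtain ⟨g, hg, hg'⟩ := h2
  have hg2 : ∀ P : Place L F, P.ord g = (d'.D : Divisor L F) P - (d.D : Divisor L F) P := fun P => by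
    rw [← hg' P, AddSubgroup.coe_sub, Finsupp.sub_apply]
  obtain ⟨a, ha, har⟩ := S.normalise i g hg
  obtain ⟨l, hl⟩ := exists_algebraMap_eq_of_forall_ord_nonneg (K := L)
    (f := d'.u / (d.u * g ^ p ^ m)) fun P => by
      rw [ord_div P d'.u_ne (mul_ne_zero d.u_ne (pow_ne_zero _ hg)),
        P.ord_mul d.u_ne (pow_ne_zero _ hg), ord_pow, d'.ord_u, d.ord_u, hg2]
      linarith
  have hu : d'.u = algebraMap L F l * (d.u * g ^ p ^ m) := by
    rw [← hl, div_mul_cancel₀ _ (mul_ne_zero d.u_ne (pow_ne_zero _ hg))]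
  have ha0 : a ≠ 0 := fun h => har (by rw [h, zero_smul, S.red_zero])
  have hc0 : d.c i ≠ 0 := fun h => d.red_ne i (by rw [h, zero_smul, S.red_zero])
  obtain ⟨hi, hred⟩ := S.mul_int_smul (d.int i)
    (show S.Int i ((a ^ p ^ m) • g ^ p ^ m) by rw [← smul_pow]; exact S.int_pow ha _)
  have hredpow : S.red i ((a ^ p ^ m) • g ^ p ^ m) = S.red i (a • g) ^ p ^ m := by
    rw [← smul_pow, S.red_pow ha]
  have hne : S.red i ((d.c i * a ^ p ^ m) • (d.u * g ^ p ^ m)) ≠ 0 := by
    rw [hred, hredpow]; exact mul_ne_zero (d.red_ne i) (pow_ne_zero _ har)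
  obtain ⟨b, hb, hb'⟩ := red_eq_const_mul S (d'.c i * l / (d.c i * a ^ p ^ m))
    (x := (d.c i * a ^ p ^ m) • (d.u * g ^ p ^ m)) (y := d'.c i • d'.u) (by
      rw [smul_smul, div_mul_cancel₀ _ (mul_ne_zero hc0 (pow_ne_zero _ ha0)), hu,
        ← Algebra.smul_def, smul_smul]) hi hne (d'.int i) (d'.red_ne i)
  refine ⟨S.red i (a • g), har, fun P => ?_⟩
  show P.ord (S.red i (d'.c i • d'.u)) = _
  rw [hb', P.ord_mul ((map_ne_zero _).mpr hb) hne, ord_algebraMap, zero_add, hred, hredpow,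
    P.ord_mul (d.red_ne i) (pow_ne_zero _ har), ord_pow]
  rfl

theorem nsmul_eq_zero (d : Datum S p m x) : p ^ m • x = 0 := by
  rw [← d.mk_D]
  refine (QuotientAddGroup.eq_zero_iff (p ^ m • d.D)).mpr ?_
  simp only [AddSubgroup.mem_addSubgroupOf]
  exact ⟨d.u, d.u_ne, fun P => by
    rw [d.ord_u, AddSubgroupClass.coe_nsmul, Finsupp.smul_apply, nsmul_eq_mul]⟩

variable (S) in
theorem nonempty_of_killed (hx : p ^ m • x = 0) : Nonempty (Datum S p m x) := by
  obtain ⟨D, u, hD, hu, hDu⟩ := exists_function x hx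
  choose c hc hcr using fun i => S.normalise i u hu
  exact ⟨⟨D, u, c, hD, hu, hDu, hc, hcr⟩⟩

end Datum

variable {S} {p : ℕ}

/-- `E` is the pair of classes of the reductions of `x`. -/
def IsRedClass (S : SplitModel A π F G) (p : ℕ) (x : Pic0 L F) (E : Fin 2 → Pic0 k G) : Prop :=
  ∃ (m : ℕ) (d : Datum S p m x) (E' : Fin 2 → Divisor.degZero (K := k) (F := G)),
    (∀ i P, d.redOrd i P = ((p ^ m : ℕ) : ℤ) * (E' i : Divisor k G) P) ∧ ∀ i, E i = Pic0.mk (E' i)

theorem IsRedClass.exists_at {x : Pic0 L F} {E : Fin 2 → Pic0 k G} (h : IsRedClass S p x E) :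
    ∃ M, ∀ M', M ≤ M' → ∃ (d : Datum S p M' x) (E' : Fin 2 → Divisor.degZero (K := k) (F := G)),
      (∀ i P, d.redOrd i P = ((p ^ M' : ℕ) : ℤ) * (E' i : Divisor k G) P) ∧
        ∀ i, E i = Pic0.mk (E' i) := by
  obtain ⟨m, d, E', hd, hE⟩ := h
  refine ⟨m, fun M' hM' => ?_⟩
  obtain ⟨j, rfl⟩ := Nat.exists_eq_add_of_le hM'
  exact ⟨d.raise j, E', fun i P => by rw [Datum.redOrd_raise, hd, pow_add]; push_cast; ring, hE⟩

theorem isRedClass_zero : IsRedClass S p (0 : Pic0 L F) 0 :=
  ⟨0, Datum.one, fun _ => 0, fun i P => by rw [Datum.redOrd_one]; simp,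
    fun _ => Pic0.mk_zero.symm⟩

theorem IsRedClass.add {x x' : Pic0 L F} {E E' : Fin 2 → Pic0 k G} (h : IsRedClass S p x E)
    (h' : IsRedClass S p x' E') : IsRedClass S p (x + x') (E + E') := by
  obtain ⟨M, hM⟩ := h.exists_at
  obtain ⟨M', hM'⟩ := h'.exists_at
  obtain ⟨d, D, hd, hD⟩ := hM (max M M') (le_max_left _ _)
  obtain ⟨d', D', hd', hD'⟩ := hM' (max M M') (le_max_right _ _)
  exact ⟨_, d.mul d', fun i => D i + D' i, fun i P => by
    rw [Datum.redOrd_mul, hd, hd', AddSubgroup.coe_add, Finsupp.add_apply]; ring,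
    fun i => by rw [Pic0.mk_add, Pi.add_apply, hD, hD']⟩

theorem IsRedClass.nsmul {x : Pic0 L F} {E : Fin 2 → Pic0 k G} (h : IsRedClass S p x E) (j : ℕ) :
    IsRedClass S p (j • x) (j • E) := by
  induction j with
  | zero => simpa using isRedClass_zero
  | succ j ih => rw [succ_nsmul, succ_nsmul]; exact ih.add h

theorem IsRedClass.exists_killed {x : Pic0 L F} {E : Fin 2 → Pic0 k G}
    (h : IsRedClass S p x E) : ∃ m, p ^ m • x = 0 :=
  let ⟨m, d, _⟩ := h; ⟨m, d.nsmul_eq_zero⟩

theorem IsRedClass.unique (hp : p ≠ 0) {x : Pic0 L F} {E E' : Fin 2 → Pic0 k G}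
    (h : IsRedClass S p x E) (h' : IsRedClass S p x E') : E = E' := by
  obtain ⟨M, hM⟩ := h.exists_at
  obtain ⟨M', hM'⟩ := h'.exists_at
  obtain ⟨d, D, hd, hD⟩ := hM (max M M') (le_max_left _ _)
  obtain ⟨d', D', hd', hD'⟩ := hM' (max M M') (le_max_right _ _)
  funext i
  rw [hD, hD']
  obtain ⟨g, hg, hg'⟩ := d.exists_divisor hp d' i
  refine (QuotientAddGroup.eq).mpr ?_
  simp only [AddSubgroup.mem_addSubgroupOf, AddSubgroup.coe_add, NegMemClass.coe_neg]
  refine ⟨g, hg, fun P => ?_⟩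
  have h1 := hg' P
  rw [hd, hd', ← mul_add] at h1
  have h2 := mul_left_cancel₀ (by exact_mod_cast pow_ne_zero _ hp) h1
  rw [Finsupp.add_apply, Finsupp.neg_apply, h2]
  ring

theorem IsRedClass.neg (hp : p ≠ 0) {x : Pic0 L F} {E : Fin 2 → Pic0 k G}
    (h : IsRedClass S p x E) : IsRedClass S p (-x) (-E) := by
  obtain ⟨m, hm⟩ := h.exists_killed
  have hpos : 0 < p ^ m := pow_pos (Nat.pos_of_ne_zero hp) m
  have h1 := h.nsmul (p ^ m - 1)
  have h2 := h.nsmul (p ^ m)
  rw [hm] at h2
  have hE : p ^ m • E = 0 := h2.unique hp isRedClass_zero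
  rwa [← eq_neg_of_add_eq_zero_left (a := (p ^ m - 1) • x) (b := x) (by
      rw [← succ_nsmul, Nat.sub_add_cancel hpos, hm]),
    ← eq_neg_of_add_eq_zero_left (a := (p ^ m - 1) • E) (b := E) (by
      rw [← succ_nsmul, Nat.sub_add_cancel hpos, hE])]

variable (hp : (p : k) ≠ 0)

include hp in
theorem p_ne_zero : p ≠ 0 := fun h => hp (by rw [h, Nat.cast_zero])

include hp in
/-- The reductions vanish exactly on the toric classes. -/
theorem isRedClass_zero_iff {x : Pic0 L F} : IsRedClass S p x 0 ↔ x ∈ toric S p hp := by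
  constructor
  · rintro ⟨m, d, E', hd, hE⟩
    have hprin : ∀ i, ∃ y : G, y ≠ 0 ∧ ∀ P : Place k G, P.ord y = (E' i : Divisor k G) P := by
      intro i
      have := (hE i).symm
      rw [Pi.zero_apply] at this
      obtain ⟨y, hy, hy'⟩ := AddSubgroup.mem_addSubgroupOf.mp
        ((QuotientAddGroup.eq_zero_iff _).mp this)
      exact ⟨y, hy, fun P => (hy' P).symm⟩
    choose y hy0 hy using hprin
    have hn := pn_ne_zero hp m
    have hb : ∀ i, ∃ b : k, algebraMap k G b = S.red i (d.c i • d.u) / y i ^ p ^ m := fun i => by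
      obtain ⟨b, hb⟩ := exists_algebraMap_eq_of_forall_ord_nonneg (K := k)
        (f := S.red i (d.c i • d.u) / y i ^ p ^ m) fun P => by
          rw [ord_div P (d.red_ne i) (pow_ne_zero _ (hy0 i)), ord_pow, hy]
          show 0 ≤ d.redOrd i P - _
          rw [hd, sub_self]
      exact ⟨b, hb.symm⟩
    choose b hb using hb
    choose r hr using fun i => IsAlgClosed.exists_pow_nat_eq (b i) (Nat.pos_of_ne_zero hn)
    obtain ⟨R, hR⟩ := S.exists_rep hn d.u_ne d.D d.ord_u d.c (fun i => algebraMap k G (r i) * y i)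
      fun i => ⟨fun h => d.red_ne i (by rw [h, zero_smul, S.red_zero]), mul_ne_zero
        ((map_ne_zero _).mpr fun h => d.red_ne i (by
          have := hb i
          rw [← hr i, h, zero_pow hn, map_zero] at this
          exact (div_eq_zero_iff.mp this.symm).resolve_right (pow_ne_zero _ (hy0 i)))) (hy0 i),
        d.int i, by rw [mul_pow, ← map_pow, hr, hb, div_mul_cancel₀ _ (pow_ne_zero _ (hy0 i))]⟩
    obtain ⟨ζ, -, hζ⟩ := isToric_of_rep hp R
    exact ⟨ζ, by rwa [hR, d.mk_D] at hζ⟩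
  · rintro ⟨ζ, m, R, rfl, -⟩
    let d : Datum S p m (Rep.cls S R) :=
      { D := ⟨R.D, Divisor.mem_degZero.mpr R.degree_D⟩
        u := R.u
        c := fun _ => 1
        mk_D := rfl
        u_ne := R.u_ne
        ord_u := R.ord_u
        int := fun i => by rw [one_smul]; exact R.int i
        red_ne := fun i => by rw [one_smul, R.red_u]; exact one_ne_zero }
    refine ⟨m, d, fun _ => 0, fun i P => ?_, fun _ => Pic0.mk_zero.symm⟩
    show P.ord (S.red i ((1 : L) • R.u)) = _
    rw [one_smul, R.red_u, P.ord_one]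
    simp

variable (s : SemilinearAut L F)

/-- The monodromy operator `x ↦ s x - x`. -/
def monOp : Pic0 L F →+ Pic0 L F :=
  DistribSMul.toAddMonoidHom (Pic0 L F) s - AddMonoidHom.id _

variable (S p) in
/-- The fixed classes with reductions. -/
def fixRed (hp : (p : k) ≠ 0) : AddSubgroup (Pic0 L F) where
  carrier := {x | s • x = x ∧ ∃ E, IsRedClass S p x E}
  zero_mem' := ⟨smul_zero _, 0, isRedClass_zero⟩
  add_mem' := fun ⟨h, _, hE⟩ ⟨h', _, hE'⟩ => ⟨by rw [smul_add, h, h'], _, hE.add hE'⟩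
  neg_mem' := fun ⟨h, _, hE⟩ => ⟨by rw [smul_neg, h], _, hE.neg (p_ne_zero hp)⟩

variable (S p) in
/-- The two reductions. -/
def redHom (hp : (p : k) ≠ 0) : fixRed S p s hp →+ (Fin 2 → Pic0 k G) :=
  AddMonoidHom.mk' (fun x => x.2.2.choose) fun x y =>
    (x + y).2.2.choose_spec.unique (p_ne_zero hp) (x.2.2.choose_spec.add y.2.2.choose_spec)

theorem redHom_spec (x : fixRed S p s hp) :
    IsRedClass S p (x : Pic0 L F) (redHom S p s hp x) := x.2.2.choose_spec

variable {s} {t : SemilinearAut k G} (hs : S.Compatible s t 1) (ht : ∀ z : G, t • z = z)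

include hs ht hp in
theorem smul_eq_of_toric {x : Pic0 L F} (hx : x ∈ toric S p hp) : s • x = x := by
  obtain ⟨ζ, m, R, rfl, hζ⟩ := hx
  have hfix : ∀ P : Place k G, t • P = P := fun P => eq_of_forall_mem fun z => by
    rw [SemilinearAut.smul_toValuationSubring,
      ValuationSubring.mem_pointwise_smul_iff_inv_smul_mem]
    have : t⁻¹ • z = z := by
      conv_lhs => rw [← ht z]
      exact inv_smul_smul t z
    rw [this]
    exact id
  have h2 := hs.hasZeta (pn_ne_zero hp m) (fun x _ => ⟨hfix _, hfix _⟩) hζ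
  rw [pow_one] at h2
  have h3 := S.cls_eq_of_hasZeta (pk_ne_zero hp m) hζ h2
  rwa [hs.cls_mapRep] at h3

include hs ht hp in
theorem monOp_mem_toric {m : ℕ} {x : Pic0 L F} (hx : p ^ m • x = 0) :
    monOp s x ∈ toric S p hp := by
  obtain ⟨d⟩ := Datum.nonempty_of_killed S hx
  obtain ⟨R, hR⟩ := hs.exists_rep_diff (pn_ne_zero hp m) d.D d.u_ne d.ord_u d.c (fun _ => 1)
    fun i => ⟨one_ne_zero, d.int i, d.red_ne i, by rw [ht, one_pow, mul_one]⟩
  obtain ⟨ζ, -, hζ⟩ := isToric_of_rep hp R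
  rw [hR, d.mk_D] at hζ
  exact ⟨ζ, hζ⟩

/-- The law at the double points: for a fixed class killed by `p ^ m`, the orders of the two
reductions are, modulo `p ^ m`, `± τ` at the glued points and zero elsewhere. -/
def PairLaw (S : SplitModel A π F G) (p : ℕ) (s : SemilinearAut L F) : Prop :=
  ∀ (m : ℕ) (x : Pic0 L F) (d : Datum S p m x), s • x = x → ∃ τ : ℤ,
    (∀ P, (∃ Q, S.Pair P Q) → ((p ^ m : ℕ) : ℤ) ∣ d.redOrd 0 P - τ) ∧
    (∀ Q, (∃ P, S.Pair P Q) → ((p ^ m : ℕ) : ℤ) ∣ d.redOrd 1 Q + τ) ∧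
    (∀ P, (¬ ∃ Q, S.Pair P Q) → ((p ^ m : ℕ) : ℤ) ∣ d.redOrd 0 P) ∧
    ∀ Q, (¬ ∃ P, S.Pair P Q) → ((p ^ m : ℕ) : ℤ) ∣ d.redOrd 1 Q

theorem exists_redClass_of_dvd {m : ℕ} (hp0 : p ≠ 0) {x : Pic0 L F} (d : Datum S p m x)
    (h : ∀ i P, ((p ^ m : ℕ) : ℤ) ∣ d.redOrd i P) : ∃ E, IsRedClass S p x E := by
  classical
  let E0 : Fin 2 → Divisor k G := fun i =>
    (divisorOf (K := k) (S.red i (d.c i • d.u))).mapRange (fun z : ℤ => z / ((p ^ m : ℕ) : ℤ))
      (by simp)
  have hE0 : ∀ i P, d.redOrd i P = ((p ^ m : ℕ) : ℤ) * E0 i P := fun i P => by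
    simp only [E0, Finsupp.mapRange_apply, divisorOf_apply]
    exact (Int.mul_ediv_cancel' (h i P)).symm
  have hdeg : ∀ i, Divisor.degree (E0 i) = 0 := fun i => by
    have hz : ((p ^ m : ℕ) : ℤ) • E0 i = divisorOf (K := k) (S.red i (d.c i • d.u)) :=
      Finsupp.ext fun P => by
        rw [Finsupp.smul_apply, smul_eq_mul, ← hE0, divisorOf_apply]; rfl
    have h1 := congrArg Divisor.degree hz
    rw [map_zsmul, degree_divisorOf, smul_eq_zero] at h1
    exact h1.resolve_left (by exact_mod_cast pow_ne_zero m hp0)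
  exact ⟨fun i => Pic0.mk ⟨E0 i, Divisor.mem_degZero.mpr (hdeg i)⟩, m, d,
    fun i => ⟨E0 i, Divisor.mem_degZero.mpr (hdeg i)⟩, hE0, fun i => rfl⟩

include hp in
/-- The classes with reductions have index at most the number of pairs. -/
theorem natCard_fixed_le (hlaw : PairLaw S p s) (hδ : S.pairs.Nonempty)
    (hfin : ∀ m, Finite (lev p (⊤ : AddSubgroup (Pic0 L F)) m)) (m : ℕ) :
    Nat.card (lev p (monOp s).ker m) ≤
      S.pairs.card * Nat.card (lev p (fixRed S p s hp) m) := by
  classical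
  have hp0 := p_ne_zero hp
  have : NeZero (p ^ m) := ⟨pn_ne_zero hp m⟩
  have := hfin m
  have : Finite (lev p (monOp s).ker m) := Finite.of_injective _
    (AddSubgroup.inclusion_injective (lev_le p (le_top : (monOp s).ker ≤ ⊤) m))
  have : Finite (lev p (fixRed S p s hp) m) := Finite.of_injective _
    (AddSubgroup.inclusion_injective (lev_le p (le_top : fixRed S p s hp ≤ ⊤) m))
  obtain ⟨⟨P₀, Q₀⟩, hPQ₀⟩ := hδ
  have hpair₀ := S.mem_pairs.mp hPQ₀
  have hfix : ∀ x : lev p (monOp s).ker m, s • (x : Pic0 L F) = x := fun x =>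
    sub_eq_zero.mp x.2.1
  let dd : ∀ x : lev p (monOp s).ker m, Datum S p m (x : Pic0 L F) := fun x =>
    (Datum.nonempty_of_killed S (lev_smul x.2)).some
  have hcast : ∀ {y : Pic0 L F} (d d' : Datum S p m y),
      ((d.redOrd 0 P₀ : ℤ) : ZMod (p ^ m)) = ((d'.redOrd 0 P₀ : ℤ) : ZMod (p ^ m)) :=
    fun d d' => by
      obtain ⟨g, -, hg⟩ := d.exists_divisor hp0 d' 0
      rw [ZMod.intCast_eq_intCast_iff_dvd_sub]
      exact ⟨P₀.ord g, by rw [hg]; ring⟩
  let φ : lev p (monOp s).ker m →+ ZMod (p ^ m) := AddMonoidHom.mk'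
    (fun x => (((dd x).redOrd 0 P₀ : ℤ) : ZMod (p ^ m))) fun x y => by
      show (((dd (x + y)).redOrd 0 P₀ : ℤ) : ZMod (p ^ m)) = _
      rw [hcast (dd (x + y)) ((dd x).mul (dd y)), Datum.redOrd_mul, Int.cast_add]
  have hδτ : ∀ x, S.pairs.card • φ x = 0 := by
    intro x
    obtain ⟨τ, h1, -, h3, -⟩ := hlaw m _ (dd x) (hfix x)
    set E := divisorOf (K := k) (S.red 0 ((dd x).c 0 • (dd x).u)) with hE
    set W := S.pairs.image Prod.fst with hW
    have hWcard : W.card = S.pairs.card := Finset.card_image_of_injOn fun a ha b hb hab => by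
      have ha' := S.mem_pairs.mp (show (a.1, a.2) ∈ S.pairs from ha)
      have hb' := S.mem_pairs.mp (show (b.1, b.2) ∈ S.pairs from hb)
      exact Prod.ext hab (ha'.right_unique S (by rw [hab]; exact hb'))
    have hmemW : ∀ P, P ∈ W ↔ ∃ Q, S.Pair P Q := fun P => by
      simp [hW, S.mem_pairs]
    have hz : ∀ P, ((E P : ℤ) : ZMod (p ^ m)) = if P ∈ W then (τ : ZMod (p ^ m)) else 0 := by
      intro P
      split_ifs with hP
      · rw [ZMod.intCast_eq_intCast_iff_dvd_sub, dvd_sub_comm]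
        exact h1 P ((hmemW P).mp hP)
      · rw [ZMod.intCast_zmod_eq_zero_iff_dvd]
        exact h3 P fun hc => hP ((hmemW P).mpr hc)
    have hdeg : ((∑ P ∈ E.support ∪ W, E P : ℤ) : ZMod (p ^ m)) = 0 := by
      rw [show ∑ P ∈ E.support ∪ W, E P = Divisor.degree E from ?_, degree_divisorOf, Int.cast_zero]
      rw [degree_eq_sum, Finsupp.sum]
      exact (Finset.sum_subset Finset.subset_union_left fun P _ hP =>
        Finsupp.notMem_support_iff.mp hP).symm
    rw [Int.cast_sum, Finset.sum_congr rfl fun P _ => hz P, Finset.sum_ite_mem,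
      Finset.inter_eq_right.mpr Finset.subset_union_right, Finset.sum_const, hWcard] at hdeg
    show S.pairs.card • ((E P₀ : ℤ) : ZMod (p ^ m)) = 0
    rwa [hz, if_pos ((hmemW P₀).mpr ⟨Q₀, hpair₀⟩)]
  have hrange : Nat.card φ.range ≤ S.pairs.card := by
    let incl : φ.range → {z : ZMod (p ^ m) // S.pairs.card • z = 0} := fun z => ⟨z, by
      obtain ⟨x, hx⟩ := z.2; rw [← hx]; exact hδτ x⟩
    refine (Nat.card_le_card_of_injective incl fun a b h =>
      Subtype.ext (Subtype.mk.inj h)).trans ?_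
    rw [Nat.card_eq_fintype_card, Fintype.card_subtype]
    exact IsAddCyclic.card_nsmul_eq_zero_le (Finset.card_pos.mpr ⟨_, hPQ₀⟩)
  have hker : Nat.card φ.ker ≤ Nat.card (lev p (fixRed S p s hp) m) := by
    refine Nat.card_le_card_of_injective (fun x : φ.ker =>
      (⟨((x : lev p (monOp s).ker m) : Pic0 L F), ⟨hfix _, ?_⟩,
        lev_smul (x : lev p (monOp s).ker m).2⟩ : lev p (fixRed S p s hp) m))
      fun a b h => Subtype.ext (Subtype.ext (Subtype.mk.inj h))
    obtain ⟨τ, h1, h2, h3, h4⟩ := hlaw m _ (dd x) (hfix _)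
    have hx0 : (((dd (x : lev p (monOp s).ker m)).redOrd 0 P₀ : ℤ) : ZMod (p ^ m)) = 0 := x.2
    rw [ZMod.intCast_zmod_eq_zero_iff_dvd] at hx0
    have hτ : ((p ^ m : ℕ) : ℤ) ∣ τ := by
      have := dvd_sub hx0 (h1 P₀ ⟨Q₀, hpair₀⟩)
      rwa [sub_sub_cancel] at this
    refine exists_redClass_of_dvd hp0 (dd x) fun i P => ?_
    obtain rfl | rfl : i = 0 ∨ i = 1 := by omega
    · by_cases hP : ∃ Q, S.Pair P Q
      · simpa using dvd_add (h1 P hP) hτ
      · exact h3 P hP
    · by_cases hP : ∃ Q, S.Pair Q P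
      · simpa using dvd_sub (h2 P hP) hτ
      · exact h4 P hP
  rw [show Nat.card (lev p (monOp s).ker m) = Nat.card φ.range * Nat.card φ.ker by
    rw [← Nat.card_congr (QuotientAddGroup.quotientKerEquivRange φ).toEquiv,
      ← AddSubgroup.card_eq_card_quotient_mul_card_addSubgroup]]
  exact Nat.mul_le_mul hrange hker

/-- The counts and hypotheses of the rows. -/
structure RowHyp (S : SplitModel A π F G) (p : ℕ) (s : SemilinearAut L F)
    (t : SemilinearAut k G) (b : ℕ) : Prop where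
  prime : p.Prime
  ne_zero : (p : k) ≠ 0
  compatible : S.Compatible s t 1
  triv : ∀ z : G, t • z = z
  law : PairLaw S p s
  pairs : S.pairs.Nonempty
  card_J : ∀ m, Nat.card (lev p (⊤ : AddSubgroup (Pic0 L F)) m) =
    p ^ (m * (2 * (S.pairs.card - 1) + 2 * b))
  card_res : ∀ m, Nat.card (lev p (⊤ : AddSubgroup (Pic0 k G)) m) = p ^ (m * b)

namespace RowHyp

variable {b : ℕ} (H : RowHyp S p s t b)

include H in
theorem card_Y (m : ℕ) :
    Nat.card (lev p (⊤ : AddSubgroup (Fin 2 → Pic0 k G)) m) = p ^ (m * (2 * b)) := by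
  let e : lev p (⊤ : AddSubgroup (Fin 2 → Pic0 k G)) m ≃
      (Fin 2 → lev p (⊤ : AddSubgroup (Pic0 k G)) m) :=
    { toFun := fun f i => ⟨f.1 i, AddSubgroup.mem_top _, congrFun (lev_smul f.2) i⟩
      invFun := fun f => ⟨fun i => (f i : Pic0 k G), AddSubgroup.mem_top _,
        funext fun i => lev_smul (f i).2⟩
      left_inv := fun f => rfl
      right_inv := fun f => rfl }
  rw [Nat.card_congr e, Nat.card_fun, H.card_res, Nat.card_eq_fintype_card, Fintype.card_fin,
    ← pow_mul]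
  ring_nf

include H in
theorem finite_top (m : ℕ) : Finite (lev p (⊤ : AddSubgroup (Pic0 L F)) m) :=
  finite_lev_of_natCard H.prime (H.card_J m)

include H in
theorem card_toric (m : ℕ) :
    Nat.card (lev p (toric S p H.ne_zero) m) = p ^ (m * (S.pairs.card - 1)) := by
  classical
  refine natCard_toric_eq H.ne_zero H.prime H.pairs (D := S.pairs.card) (fun m => ?_) m
  have := H.finite_top m
  have : Finite (lev p (⊤ : AddSubgroup (Fin 2 → Pic0 k G)) m) :=
    finite_lev_of_natCard H.prime (H.card_Y m)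
  obtain ⟨hfinT, -⟩ := natCard_toric (S := S) H.ne_zero H.pairs m
  have hT := natCard_toric_le (S := S) H.ne_zero H.pairs m
  let f : lev p (⊤ : AddSubgroup (Pic0 L F)) m →+ lev p (toric S p H.ne_zero) m :=
    AddMonoidHom.mk' (fun x => ⟨monOp s x,
      monOp_mem_toric H.ne_zero H.compatible H.triv (lev_smul x.2), show p ^ m • monOp s x = 0 by
        rw [← map_nsmul, lev_smul x.2, map_zero]⟩) fun x y => Subtype.ext (map_add _ _ _)
  have : Finite (lev p (monOp s).ker m) := Finite.of_injective _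
    (AddSubgroup.inclusion_injective (lev_le p (le_top : (monOp s).ker ≤ ⊤) m))
  have : Finite (lev p (fixRed S p s H.ne_zero) m) := Finite.of_injective _
    (AddSubgroup.inclusion_injective (lev_le p (le_top : fixRed S p s H.ne_zero ≤ ⊤) m))
  let g : lev p (fixRed S p s H.ne_zero) m →+
      lev p (⊤ : AddSubgroup (Fin 2 → Pic0 k G)) m :=
    AddMonoidHom.mk' (fun x => ⟨redHom S p s H.ne_zero ⟨x, x.2.1⟩, AddSubgroup.mem_top _,
      show p ^ m • redHom S p s H.ne_zero ⟨x, x.2.1⟩ = 0 by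
        rw [← map_nsmul, show p ^ m • (⟨x, x.2.1⟩ : fixRed S p s H.ne_zero) = 0 from
          Subtype.ext (lev_smul x.2), map_zero]⟩)
      fun x y => Subtype.ext (map_add (redHom S p s H.ne_zero) ⟨x, x.2.1⟩ ⟨y, y.2.1⟩)
  have hfker : Nat.card f.ker ≤ S.pairs.card * Nat.card (lev p (fixRed S p s H.ne_zero) m) :=
    (Nat.card_le_card_of_injective
      (fun x : f.ker => (⟨((x : lev p (⊤ : AddSubgroup (Pic0 L F)) m) : Pic0 L F),
        congrArg Subtype.val x.2, lev_smul (x : lev p (⊤ : AddSubgroup (Pic0 L F)) m).2⟩ :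
          lev p (monOp s).ker m))
      fun a c h => Subtype.ext (Subtype.ext (Subtype.mk.inj h))).trans
      (natCard_fixed_le H.ne_zero H.law H.pairs H.finite_top m)
  have hgker : Nat.card g.ker ≤ Nat.card (lev p (toric S p H.ne_zero) m) :=
    Nat.card_le_card_of_injective
      (fun x : g.ker => (⟨((x : lev p (fixRed S p s H.ne_zero) m) : Pic0 L F),
        (isRedClass_zero_iff H.ne_zero).mp (by
          have h0 := congrArg Subtype.val x.2
          have := redHom_spec H.ne_zero s ⟨_, (x : lev p (fixRed S p s H.ne_zero) m).2.1⟩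
          rwa [show redHom S p s H.ne_zero ⟨_, (x : lev p (fixRed S p s H.ne_zero) m).2.1⟩ = 0
            from h0] at this),
        lev_smul (x : lev p (fixRed S p s H.ne_zero) m).2⟩ : lev p (toric S p H.ne_zero) m))
      fun a c h => Subtype.ext (Subtype.ext (Subtype.mk.inj h))
  have hgr : Nat.card g.range ≤ p ^ (m * (2 * b)) := by
    rw [← H.card_Y m]; exact Nat.card_le_card_of_injective _ Subtype.val_injective
  have hfr : Nat.card f.range ≤ Nat.card (lev p (toric S p H.ne_zero) m) :=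
    Nat.card_le_card_of_injective _ Subtype.val_injective
  have e1 : Nat.card (lev p (⊤ : AddSubgroup (Pic0 L F)) m) =
      Nat.card f.range * Nat.card f.ker := by
    rw [← Nat.card_congr (QuotientAddGroup.quotientKerEquivRange f).toEquiv,
      ← AddSubgroup.card_eq_card_quotient_mul_card_addSubgroup]
  have e2 : Nat.card (lev p (fixRed S p s H.ne_zero) m) = Nat.card g.range * Nat.card g.ker := by
    rw [← Nat.card_congr (QuotientAddGroup.quotientKerEquivRange g).toEquiv,
      ← AddSubgroup.card_eq_card_quotient_mul_card_addSubgroup]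
  set T := Nat.card (lev p (toric S p H.ne_zero) m)
  refine Nat.le_of_mul_le_mul_right (c := p ^ (m * (S.pairs.card - 1)) * p ^ (m * (2 * b))) ?_
    (Nat.mul_pos (pow_pos H.prime.pos _) (pow_pos H.prime.pos _))
  calc p ^ (m * (S.pairs.card - 1)) * (p ^ (m * (S.pairs.card - 1)) * p ^ (m * (2 * b)))
      = Nat.card (lev p (⊤ : AddSubgroup (Pic0 L F)) m) := by
        rw [H.card_J, ← pow_add, ← pow_add]; ring_nf
    _ ≤ T * (S.pairs.card * (p ^ (m * (2 * b)) * T)) := by
        rw [e1]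
        refine Nat.mul_le_mul hfr (hfker.trans (Nat.mul_le_mul_left _ ?_))
        rw [e2]
        exact Nat.mul_le_mul hgr hgker
    _ ≤ p ^ (m * (S.pairs.card - 1)) * (S.pairs.card * (p ^ (m * (2 * b)) * T)) :=
        Nat.mul_le_mul_right _ hT
    _ = S.pairs.card * T * (p ^ (m * (S.pairs.card - 1)) * p ^ (m * (2 * b))) := by ring

/-- The rows. -/
def rowData : RowData (Pic0 L F) (Fin 2 → Pic0 k G) where
  p := p
  hp := H.prime
  a := S.pairs.card - 1
  b := 2 * b
  D := S.pairs.card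
  N := monOp s
  T := toric S p H.ne_zero
  F := fixRed S p s H.ne_zero
  red := redHom S p s H.ne_zero
  T_le x hx := ⟨smul_eq_of_toric H.ne_zero H.compatible H.triv hx, 0,
    (isRedClass_zero_iff H.ne_zero).mpr hx⟩
  F_le x hx := sub_eq_zero.mpr hx.1
  N_mem m x hx := monOp_mem_toric H.ne_zero H.compatible H.triv hx
  red_eq_zero m x hx hxp := by
    constructor
    · intro h0
      have := redHom_spec H.ne_zero s ⟨x, hx⟩
      rw [h0] at this
      exact (isRedClass_zero_iff H.ne_zero).mp this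
    · intro hT
      exact (redHom_spec H.ne_zero s ⟨x, hx⟩).unique (p_ne_zero H.ne_zero)
        ((isRedClass_zero_iff H.ne_zero).mpr hT)
  card_T := H.card_toric
  card_J := H.card_J
  card_Y := H.card_Y
  index := natCard_fixed_le H.ne_zero H.law H.pairs H.finite_top

theorem exists_killed_of_mem_fixRed {x : Pic0 L F} (hx : x ∈ H.rowData.F) :
    ∃ j, H.rowData.p ^ j • x = 0 :=
  let ⟨_, _, hE⟩ := hx; hE.exists_killed

include H in
/-- **Reductions are onto.** Every pair of classes killed by `p ^ m` is the pair of reductions of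
a fixed class killed by `p ^ m`. -/
theorem exists_red_eq (m : ℕ) {y : Fin 2 → Pic0 k G} (hy : p ^ m • y = 0) :
    ∃ x : Pic0 L F, p ^ m • x = 0 ∧ s • x = x ∧ IsRedClass S p x y := by
  obtain ⟨x, hx, hxm, hxy⟩ :=
    H.rowData.exists_red_level (fun _ h => H.exists_killed_of_mem_fixRed h) m hy
  exact ⟨x, hxm, hx.1, hxy ▸ redHom_spec H.ne_zero s ⟨x, hx⟩⟩

include H in
/-- **Monodromy is onto** up to an operator killing the components. -/
theorem exists_monOp_eq (η : Pic0 L F →+ Pic0 L F) (hη : ∀ x, η (s • x) = s • η x)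
    (hηF : ∀ (j : ℕ) (x : Pic0 L F), p ^ j • x = 0 → s • x = x → ∃ E, IsRedClass S p (η x) E)
    (m : ℕ) {y : Pic0 L F} (hy : y ∈ toric S p H.ne_zero) (hym : p ^ m • y = 0) :
    ∃ x : Pic0 L F, p ^ m • x = 0 ∧ s • x - x = η y :=
  H.rowData.exists_mon (fun _ h => H.exists_killed_of_mem_fixRed h) η
    (fun x => by
      show s • η x - η x = η (s • x - x)
      rw [map_sub, hη])
    (fun j x hx hNx => by
      have hfix : s • x = x := sub_eq_zero.mp hNx
      exact ⟨show s • η x = η x by rw [← hη, hfix], hηF j x hx hfix⟩) m ⟨hy, hym⟩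

end RowHyp

end Fermat.Agent.ToricRows

end
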