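import Fermat.Agent.ToricRows.Counting
import Fermat.Agent.SemistableRed.Representatives
import Mathlib.RingTheory.RootsOfUnity.EnoughRootsOfUnity
import Mathlib.FieldTheory.IsSepClosed
import Mathlib.RingTheory.Valuation.Integral

/-!
# The toric torsion of a split model

A torsion class is toric when it has a representative congruent to one on both components. The
gluing datum identifies the toric classes killed by `p ^ m` with a subgroup of the functions from
the glued pairs to `μ_{p ^ m}`, modulo the constants.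
-/

set_option autoImplicit false
set_option linter.unusedSectionVars false

noncomputable section

open AlgebraicCurve Fermat.Agent.FunctionFieldRR Fermat.Agent.SemistableRed
  Fermat.Agent.SemistableRed.SplitModel

namespace Fermat.Agent.ToricRows

variable {L : Type*} [Field L] [IsAlgClosed L] {A : ValuationSubring L} {k : Type*} [Field k]
  [IsAlgClosed k] {π : A →+* k} {F : Type*} [Field F] [Algebra L F] [IsFunctionField L F]
  {G : Type*} [Field G] [Algebra k G] [IsFunctionField k G]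
variable (S : SplitModel A π F G) {n : ℕ}

/-- A representative of order `n` as one of order `n * d`. -/
def raise (d : ℕ) {N : ℕ} (h : N = n * d) (R : S.Rep n) : S.Rep N where
  u := R.u ^ d
  D := R.D
  u_ne := pow_ne_zero _ R.u_ne
  ord_u P := by rw [ord_pow, R.ord_u, h]; push_cast; ring
  degree_D := R.degree_D
  int i := S.int_pow (R.int i) d
  red_u i := by rw [S.red_pow (R.int i), R.red_u, one_pow]

theorem hasZeta_raise (d : ℕ) {N : ℕ} (h : N = n * d) {R : S.Rep n} {ζ : S.pairs → k}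
    (hζ : S.HasZeta R ζ) : S.HasZeta (raise S d h R) ζ := hζ

/-- When `u` is congruent to one and its divisor is `n` times that of `g`, a scalar multiple of `g`
is congruent to a nonzero constant on both components. -/
theorem exists_scale_of_pow (hn : n ≠ 0) {u g : F} (hu0 : u ≠ 0) (hg : g ≠ 0)
    (hord : ∀ P : Place L F, P.ord u = (n : ℤ) * P.ord g)
    (hu : ∀ i, S.Int i u ∧ S.red i u = 1) :
    ∃ (a : L) (b : Fin 2 → k), a ≠ 0 ∧ ∀ i, b i ≠ 0 ∧ S.Int i (a • g) ∧
      S.red i (a • g) = algebraMap k G (b i) := by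
  obtain ⟨l, hl⟩ := exists_algebraMap_eq_of_forall_ord_nonneg (K := L) (f := u / g ^ n) fun P => by
    rw [ord_div P hu0 (pow_ne_zero n hg), hord, ord_pow, sub_self]
  choose a ha har using fun i => S.normalise i g hg
  have ha0 : ∀ i, a i ≠ 0 := fun i h => har i (by rw [h, zero_smul, S.red_zero])
  have hpow : ∀ i, u = (l / a i ^ n) • (a i • g) ^ n := fun i => by
    rw [smul_pow, smul_smul, div_mul_cancel₀ _ (pow_ne_zero _ (ha0 i)), Algebra.smul_def, ← hl,
      div_mul_cancel₀ _ (pow_ne_zero n hg)]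
  have hl0 : l ≠ 0 := fun h => hu0 (by rw [hpow 0, h, zero_div, zero_smul])
  have hA : ∀ i, l / a i ^ n ∈ A ∧ (l / a i ^ n)⁻¹ ∈ A := by
    intro i
    have hne : l / a i ^ n ≠ 0 := div_ne_zero hl0 (pow_ne_zero _ (ha0 i))
    have hin : S.Int i ((a i • g) ^ n) := S.int_pow (ha i) n
    have hred : S.red i ((a i • g) ^ n) ≠ 0 := by
      rw [S.red_pow (ha i)]; exact pow_ne_zero _ (har i)
    have hback : (a i • g) ^ n = (l / a i ^ n)⁻¹ • u := by
      conv_rhs => rw [hpow i]
      rw [smul_smul, inv_mul_cancel₀ hne, one_smul]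
    refine ⟨?_, ?_⟩
    · by_contra hout
      have hinv := (A.mem_or_inv_mem _).resolve_left hout
      have hz : π ⟨_, hinv⟩ = 0 := by
        refine S.isResidueMap _ |>.mpr fun hunit => hout ?_
        obtain ⟨w, hw⟩ := hunit.exists_right_inv
        have := congrArg (fun z : A => (z : L)) hw
        simp only [MulMemClass.coe_mul, OneMemClass.coe_one] at this
        rw [show l / a i ^ n = (w : L) from (inv_mul_eq_one₀ hne).mp this]
        exact w.2
      refine hred ?_
      rw [hback, S.red_smul i _ u hinv (hu i).1, hz, zero_smul]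
    · by_contra hout
      have hin' := (A.mem_or_inv_mem _).resolve_right hout
      have hz : π ⟨_, hin'⟩ = 0 := by
        refine S.isResidueMap _ |>.mpr fun hunit => hout ?_
        obtain ⟨w, hw⟩ := hunit.exists_right_inv
        have := congrArg (fun z : A => (z : L)) hw
        simp only [MulMemClass.coe_mul, OneMemClass.coe_one] at this
        rw [show (l / a i ^ n)⁻¹ = (w : L) from inv_eq_of_mul_eq_one_right this]
        exact w.2
      have h1 := (hu i).2
      rw [hpow i, S.red_smul i _ _ hin' hin, hz, zero_smul] at h1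
      exact zero_ne_one h1
  have hunit : a 0 / a 1 ∈ A := by
    have hmem : (a 0 / a 1) ^ n ∈ A := by
      rw [show (a 0 / a 1) ^ n = (l / a 1 ^ n) * (l / a 0 ^ n)⁻¹ by
        rw [div_pow]; field_simp]
      exact A.mul_mem _ _ (hA 1).1 (hA 0).2
    obtain ⟨z, hz⟩ := IsIntegrallyClosed.isIntegral_iff.mp
      (IsIntegral.of_pow (Nat.pos_of_ne_zero hn)
        (isIntegral_algebraMap (R := A) (A := L) (x := (⟨_, hmem⟩ : A))))
    rw [← hz]; exact z.2
  have hint1 : S.Int 1 (a 0 • g) := by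
    have := S.int_smul 1 _ _ hunit (ha 1)
    rwa [smul_smul, div_mul_cancel₀ _ (ha0 1)] at this
  have hred1 : S.red 1 (a 0 • g) ≠ 0 := by
    intro h0
    have hin : S.Int 1 ((a 0 • g) ^ n) := S.int_pow hint1 n
    have h1 := (hu 1).2
    rw [hpow 0, S.red_smul 1 _ _ (hA 0).1 hin, S.red_pow hint1, h0, zero_pow hn, smul_zero] at h1
    exact zero_ne_one h1
  have key : ∀ i, S.Int i (a 0 • g) → S.red i (a 0 • g) ≠ 0 →
      ∃ b : k, b ≠ 0 ∧ S.red i (a 0 • g) = algebraMap k G b := by
    intro i hi hne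
    rcases eq_algebraMap_or_transcendental (K := k) (S.red i (a 0 • g)) with ⟨b, hb⟩ | htr
    · exact ⟨b, fun h => hne (by rw [hb, h, map_zero]), hb⟩
    · exfalso
      have h1 := (hu i).2
      rw [hpow 0, S.red_smul i _ _ (hA 0).1 (S.int_pow hi n), S.red_pow hi] at h1
      refine htr ?_
      have hc : π ⟨_, (hA 0).1⟩ ≠ 0 := fun hz => by rw [hz, zero_smul] at h1; exact zero_ne_one h1
      refine IsAlgebraic.of_pow (Nat.pos_of_ne_zero hn) ?_
      rw [show S.red i (a 0 • g) ^ n = algebraMap k G (π ⟨_, (hA 0).1⟩)⁻¹ from by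
        rw [map_inv₀]
        exact eq_inv_of_mul_eq_one_left (by rw [mul_comm, ← Algebra.smul_def, h1])]
      exact isAlgebraic_algebraMap _
  obtain ⟨b0, hb0, hb0'⟩ := key 0 (ha 0) (har 0)
  obtain ⟨b1, hb1, hb1'⟩ := key 1 hint1 hred1
  refine ⟨a 0, ![b0, b1], ha0 0, fun i => ?_⟩
  fin_cases i
  · exact ⟨hb0, ha 0, hb0'⟩
  · exact ⟨hb1, hint1, hb1'⟩

/-- The gluing datum of a principal representative. -/
theorem hasZeta_principal (hn : n ≠ 0) (R : S.Rep n) {g : F} (hg : g ≠ 0)
    (hD : ∀ P : Place L F, P.ord g = R.D P) {b : Fin 2 → k} (hb : ∀ i, b i ≠ 0)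
    (hgi : ∀ i, S.Int i g ∧ S.red i g = algebraMap k G (b i)) :
    S.HasZeta R (fun _ => b 1 / b 0) := by
  obtain ⟨η, -, hη⟩ := S.exists_hasZeta hn R
  suffices η = fun _ => b 1 / b 0 by rw [← this]; exact hη
  obtain ⟨z, hz, hv⟩ := S.exists_pair_values (le_refl S.evalLevel) η 1
  have hmem : z ∈ S.imgSpace (S.twist R S.evalLevel) := by
    rw [hη _ le_rfl]
    exact S.mem_zetaSpace.mpr ⟨hz, fun x => by rw [(hv x).1, (hv x).2]; simp⟩
  obtain ⟨f, hf, hfi, hfr⟩ := hmem
  have hfg : f * g ∈ riemannRochSpace ((S.evalLevel : ℤ) • S.H) := by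
    rcases eq_or_ne f 0 with h0 | h0
    · rw [h0, zero_mul]; exact Submodule.zero_mem _
    refine mem_rrs_iff.mpr (Or.inr fun P => ?_)
    have h1 := (mem_rrs_iff.mp hf).resolve_left h0 P
    simp only [Finsupp.add_apply] at h1
    rw [P.ord_mul h0 hg, hD]
    linarith
  have hreach : S.Reach (fun i => b i • z i) := ⟨S.evalLevel, f * g, hfg,
    fun i => S.int_mul i _ _ (hfi i) (hgi i).1, funext fun i => by
      show S.red i (f * g) = b i • z i
      rw [S.red_mul i _ _ (hfi i) (hgi i).1, (hgi i).2, ← hfr, Algebra.smul_def, mul_comm]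
      rfl⟩
  funext x
  have hp := S.mem_pairs.mp x.2
  have h := hp.2.2 _ hreach
  simp only [ev] at h
  rw [residueConst_smul _ (S.regular_of_mem_pairSpace hz 0 hp.1),
    residueConst_smul _ (S.regular_of_mem_pairSpace hz 1 hp.2.1)] at h
  have h0 := (hv x).1
  have h1 := (hv x).2
  simp only [ev, Pi.one_apply] at h0 h1
  rw [h0, h1, mul_one] at h
  rw [eq_div_iff (hb 0), mul_comm, h]

/-- A representative with principal divisor and constant gluing datum. -/
theorem exists_const_rep (hn : n ≠ 0) {ω : k} (hω : ω ^ n = 1) :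
    ∃ R : S.Rep n, Rep.cls S R = 0 ∧ S.HasZeta R fun _ => ω := by
  have hω0 : ω ≠ 0 := fun h => by rw [h, zero_pow hn] at hω; exact zero_ne_one hω
  obtain ⟨g, hg⟩ := S.exists_lift ![1, algebraMap k G ω]
  have hg0 : g ≠ 0 := S.ne_zero_of_red_ne (i := 0) (by rw [(hg 0).2]; exact one_ne_zero)
  let R : S.Rep n :=
    { u := g ^ n
      D := divisorOf g
      u_ne := pow_ne_zero _ hg0
      ord_u := fun P => by rw [ord_pow, divisorOf_apply]
      degree_D := degree_divisorOf g
      int := fun i => S.int_pow (hg i).1 n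
      red_u := fun i => by
        rw [S.red_pow (hg i).1, (hg i).2]
        fin_cases i
        · simp
        · simp [← map_pow, hω] }
  refine ⟨R, ?_, ?_⟩
  · refine (QuotientAddGroup.eq_zero_iff _).mpr ?_
    simp only [AddSubgroup.mem_addSubgroupOf]
    exact ⟨g, hg0, fun P => rfl⟩
  · have := hasZeta_principal S hn R hg0 (fun P => rfl) (b := ![1, ω])
      (fun i => by fin_cases i <;> simp [hω0]) fun i => ⟨(hg i).1, by
        rw [(hg i).2]; fin_cases i <;> simp⟩
    simpa using this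

/-- A class with trivial divisor class has constant gluing datum. -/
theorem exists_const_of_cls_eq_zero (hn : n ≠ 0) {R : S.Rep n} {ζ : S.pairs → k}
    (hζ : S.HasZeta R ζ) (h : Rep.cls S R = 0) : ∃ ω : k, ζ = fun _ => ω := by
  have h2 := (QuotientAddGroup.eq_zero_iff _).mp h
  simp only [AddSubgroup.mem_addSubgroupOf] at h2
  obtain ⟨g, hg, hg'⟩ := h2
  obtain ⟨a, b, ha, hab⟩ := exists_scale_of_pow S hn R.u_ne hg
    (fun P => by rw [R.ord_u, show R.D P = P.ord g from hg' P]) fun i => ⟨R.int i, R.red_u i⟩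
  have hD : ∀ P : Place L F, P.ord (a • g) = R.D P := fun P => by
    rw [Algebra.smul_def, P.ord_mul ((map_ne_zero _).mpr ha) hg, ord_algebraMap, zero_add]
    exact (hg' P).symm
  exact ⟨_, HasZeta.unique S hζ (hasZeta_principal S hn R (smul_ne_zero ha hg) hD
    (fun i => (hab i).1) fun i => (hab i).2)⟩

section Level

variable (p : ℕ)

/-- The toric relation: `x` has a representative congruent to one with gluing datum `ζ`. -/
def IsToric (x : Pic0 L F) (ζ : Additive (S.pairs → kˣ)) : Prop :=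
  ∃ (m : ℕ) (R : S.Rep (p ^ m)), Rep.cls S R = x ∧ S.HasZeta R fun i => (ζ.toMul i : k)

variable {S p}

theorem IsToric.exists_rep {x : Pic0 L F} {ζ : Additive (S.pairs → kˣ)} (h : IsToric S p x ζ)
    (m : ℕ) : ∃ M, m ≤ M ∧ ∀ M', M ≤ M' → ∃ R : S.Rep (p ^ M'), Rep.cls S R = x ∧
      S.HasZeta R fun i => (ζ.toMul i : k) := by
  obtain ⟨m₀, R, hR, hζ⟩ := h
  refine ⟨max m m₀, le_max_left _ _, fun M' hM' => ?_⟩
  have hpow : p ^ M' = p ^ m₀ * p ^ (M' - m₀) := by
    rw [← pow_add, Nat.add_sub_cancel' ((le_max_right m m₀).trans hM')]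
  exact ⟨raise S _ hpow R, hR, hasZeta_raise S _ hpow hζ⟩

variable (hp : (p : k) ≠ 0)

include hp in
theorem pk_ne_zero (m : ℕ) : ((p ^ m : ℕ) : k) ≠ 0 := by
  rw [Nat.cast_pow]; exact pow_ne_zero _ hp

include hp in
theorem pn_ne_zero (m : ℕ) : p ^ m ≠ 0 := fun h => pk_ne_zero hp m (by rw [h, Nat.cast_zero])

include hp in
theorem IsToric.add {x x' : Pic0 L F} {ζ ζ' : Additive (S.pairs → kˣ)} (h : IsToric S p x ζ)
    (h' : IsToric S p x' ζ') : IsToric S p (x + x') (ζ + ζ') := by
  obtain ⟨M, -, hM⟩ := h.exists_rep 0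
  obtain ⟨M', -, hM'⟩ := h'.exists_rep 0
  obtain ⟨R, hR, hRζ⟩ := hM (max M M') (le_max_left _ _)
  obtain ⟨R', hR', hRζ'⟩ := hM' (max M M') (le_max_right _ _)
  refine ⟨_, R.mul R', by rw [Rep.cls_mul, hR, hR'], ?_⟩
  have := HasZeta.mul S (pn_ne_zero hp _) hRζ hRζ'
  exact this

include hp in
theorem IsToric.neg {x : Pic0 L F} {ζ : Additive (S.pairs → kˣ)} (h : IsToric S p x ζ) :
    IsToric S p (-x) (-ζ) := by
  obtain ⟨m, R, hR, hζ⟩ := h
  obtain ⟨η, -, hη⟩ := S.exists_hasZeta (pn_ne_zero hp m) (Rep.inv S R)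
  refine ⟨m, Rep.inv S R, by rw [Rep.cls_inv, hR], ?_⟩
  have h1 := HasZeta.mul S (pn_ne_zero hp m) hζ hη
  have hone : R.mul (Rep.inv S R) = Rep.one S (p ^ m) :=
    Rep.ext' S (mul_inv_cancel₀ R.u_ne) (add_neg_cancel R.D)
  rw [hone] at h1
  have h2 := HasZeta.unique S h1 S.hasZeta_one
  convert hη using 1
  funext i
  have h3 := congrFun h2 i
  simp only [Pi.mul_apply, Pi.one_apply] at h3
  show (((ζ.toMul i)⁻¹ : kˣ) : k) = η i
  rw [Units.val_inv_eq_inv_val]
  exact (eq_inv_of_mul_eq_one_right h3).symm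

theorem isToric_zero : IsToric S p (0 : Pic0 L F) 0 :=
  ⟨0, Rep.one S _, Rep.cls_one S, S.hasZeta_one⟩

include hp in
theorem IsToric.unique {x x' : Pic0 L F} {ζ : Additive (S.pairs → kˣ)} (h : IsToric S p x ζ)
    (h' : IsToric S p x' ζ) : x = x' := by
  obtain ⟨M, -, hM⟩ := h.exists_rep 0
  obtain ⟨M', -, hM'⟩ := h'.exists_rep 0
  obtain ⟨R, hR, hRζ⟩ := hM (max M M') (le_max_left _ _)
  obtain ⟨R', hR', hRζ'⟩ := hM' (max M M') (le_max_right _ _)
  rw [← hR, ← hR']
  exact (S.cls_eq_of_hasZeta (pk_ne_zero hp _) hRζ hRζ').symm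

include hp in
theorem IsToric.const_of_zero {ζ : Additive (S.pairs → kˣ)} (h : IsToric S p 0 ζ) :
    ∃ ω : k, ∀ i, (ζ.toMul i : k) = ω := by
  obtain ⟨m, R, hR, hζ⟩ := h
  obtain ⟨ω, hω⟩ := exists_const_of_cls_eq_zero S (pn_ne_zero hp m) hζ hR
  exact ⟨ω, fun i => congrFun hω i⟩

include hp in
/-- A toric class killed by `p ^ m` has a representative of that order. -/
theorem IsToric.exists_level {x : Pic0 L F} {ζ : Additive (S.pairs → kˣ)}
    (h : IsToric S p x ζ) {m : ℕ} (hx : p ^ m • x = 0) :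
    ∃ R : S.Rep (p ^ m), Rep.cls S R = x := by
  obtain ⟨M, hmM, hM⟩ := h.exists_rep m
  obtain ⟨R, hR, -⟩ := hM M le_rfl
  let D : Divisor.degZero (K := L) (F := F) := ⟨R.D, Divisor.mem_degZero.mpr R.degree_D⟩
  have h0 : (QuotientAddGroup.mk (p ^ m • D) : Pic0 L F) = 0 := by
    rw [← hx, ← hR]; rfl
  have h2 := (QuotientAddGroup.eq_zero_iff _).mp h0
  simp only [AddSubgroup.mem_addSubgroupOf] at h2
  obtain ⟨g, hg, hg'⟩ := h2
  have hgD : ∀ P : Place L F, P.ord g = ((p ^ m : ℕ) : ℤ) * R.D P := fun P => by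
    rw [← hg' P]; simp [D]
  obtain ⟨a, b, ha, hab⟩ := exists_scale_of_pow S (pn_ne_zero hp (M - m)) R.u_ne hg
    (fun P => by
      rw [R.ord_u, hgD, ← mul_assoc, ← Nat.cast_mul, ← pow_add, Nat.sub_add_cancel hmM])
    fun i => ⟨R.int i, R.red_u i⟩
  choose y hy using fun i => IsAlgClosed.exists_pow_nat_eq (b i)
    (Nat.pos_of_ne_zero (pn_ne_zero hp m))
  obtain ⟨R', hR'⟩ := S.exists_rep (pn_ne_zero hp m) hg D hgD (fun _ => a)
    (fun i => algebraMap k G (y i)) fun i => ⟨ha, (map_ne_zero _).mpr fun h0 =>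
      (hab i).1 (by rw [← hy i, h0, zero_pow (pn_ne_zero hp m)]), (hab i).2.1,
      by rw [(hab i).2.2, ← map_pow, hy]⟩
  exact ⟨R', by rw [hR', ← hR]; rfl⟩

include hp in
theorem isToric_of_rep {m : ℕ} (R : S.Rep (p ^ m)) :
    ∃ ζ : Additive (S.pairs → kˣ), p ^ m • ζ = 0 ∧ IsToric S p (Rep.cls S R) ζ := by
  obtain ⟨η, hη1, hη⟩ := S.exists_hasZeta (pn_ne_zero hp m) R
  refine ⟨Additive.ofMul fun i => Units.ofPowEqOne (η i) _ (hη1 i) (pn_ne_zero hp m), ?_, m, R, rfl,
    hη⟩
  show Additive.ofMul ((fun i => Units.ofPowEqOne (η i) _ (hη1 i) (pn_ne_zero hp m)) ^ p ^ m) = 0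
  exact congrArg Additive.ofMul (funext fun i => Units.ext (by simp))

variable (S p) in
/-- The toric classes. -/
def toric (hp : (p : k) ≠ 0) : AddSubgroup (Pic0 L F) where
  carrier := {x | ∃ ζ, IsToric S p x ζ}
  zero_mem' := ⟨0, isToric_zero⟩
  add_mem' := fun ⟨_, h⟩ ⟨_, h'⟩ => ⟨_, h.add hp h'⟩
  neg_mem' := fun ⟨_, h⟩ => ⟨_, h.neg hp⟩

variable (S p) in
/-- The gluing data of toric classes. -/
def glueData (hp : (p : k) ≠ 0) : AddSubgroup (Additive (S.pairs → kˣ)) where
  carrier := {ζ | ∃ x, IsToric S p x ζ}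
  zero_mem' := ⟨0, isToric_zero⟩
  add_mem' := fun ⟨_, h⟩ ⟨_, h'⟩ => ⟨_, h.add hp h'⟩
  neg_mem' := fun ⟨_, h⟩ => ⟨_, h.neg hp⟩

theorem natCard_killed_units {hp : (p : k) ≠ 0} (m : ℕ) :
    Nat.card (lev p (⊤ : AddSubgroup (Additive (S.pairs → kˣ))) m) =
      p ^ (m * S.pairs.card) := by
  have : NeZero ((p ^ m : ℕ) : k) := ⟨pk_ne_zero hp m⟩
  have : NeZero (p ^ m) := ⟨pn_ne_zero hp m⟩
  let e : lev p (⊤ : AddSubgroup (Additive (S.pairs → kˣ))) m ≃
      (S.pairs → rootsOfUnity (p ^ m) k) :=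
    { toFun := fun ζ i => ⟨ζ.1.toMul i, (mem_rootsOfUnity _ _).mpr
        (congrFun (congrArg Additive.toMul (lev_smul ζ.2)) i)⟩
      invFun := fun f => ⟨Additive.ofMul fun i => (f i : kˣ), AddSubgroup.mem_top _,
        congrArg Additive.ofMul (funext fun i => (mem_rootsOfUnity _ _).mp (f i).2)⟩
      left_inv := fun ζ => rfl
      right_inv := fun f => rfl }
  rw [Nat.card_congr e, Nat.card_fun, HasEnoughRootsOfUnity.natCard_rootsOfUnity,
    Nat.card_eq_fintype_card, Fintype.card_coe, ← pow_mul]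

include hp in
/-- The toric classes killed by `p ^ m`, against their gluing data. -/
theorem natCard_toric (hδ : S.pairs.Nonempty) (m : ℕ) :
    Finite (lev p (toric S p hp) m) ∧
      Nat.card (lev p (toric S p hp) m) * p ^ m = Nat.card (lev p (glueData S p hp) m) := by
  classical
  have : NeZero ((p ^ m : ℕ) : k) := ⟨pk_ne_zero hp m⟩
  have : NeZero (p ^ m) := ⟨pn_ne_zero hp m⟩
  have : Finite (lev p (glueData S p hp) m) := by
    have : Finite (lev p (⊤ : AddSubgroup (Additive (S.pairs → kˣ))) m) :=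
      Nat.finite_of_card_ne_zero (by
        rw [natCard_killed_units (hp := hp) m]
        exact fun h => pn_ne_zero hp (m * S.pairs.card) h)
    exact Finite.of_injective _
      (AddSubgroup.inclusion_injective (lev_le p (le_top : glueData S p hp ≤ ⊤) m))
  have hzero : ∀ (x : Pic0 L F) ζ, IsToric S p x ζ → p ^ m • ζ = 0 → p ^ m • x = 0 := by
    intro x ζ hx hζ
    have h : ∀ j : ℕ, IsToric S p (j • x) (j • ζ) := by
      intro j
      induction j with
      | zero => simpa using isToric_zero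
      | succ j ih => rw [succ_nsmul, succ_nsmul]; exact ih.add hp hx
    exact (h _).unique hp (by rw [hζ]; exact isToric_zero)
  let φ : lev p (glueData S p hp) m →+ lev p (toric S p hp) m := AddMonoidHom.mk'
    (fun ζ => ⟨ζ.2.1.choose, ⟨_, ζ.2.1.choose_spec⟩,
      hzero _ _ ζ.2.1.choose_spec (lev_smul ζ.2)⟩)
    fun ζ ζ' => Subtype.ext <| (show IsToric S p _ _ from (ζ + ζ').2.1.choose_spec).unique hp
      (ζ.2.1.choose_spec.add hp ζ'.2.1.choose_spec)
  have hφ : ∀ (ζ : lev p (glueData S p hp) m), IsToric S p (φ ζ : Pic0 L F) (ζ : _) :=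
    fun ζ => ζ.2.1.choose_spec
  have hsurj : Function.Surjective φ := by
    rintro ⟨x, ⟨ζ, hζ⟩, hx⟩
    obtain ⟨R, rfl⟩ := hζ.exists_level hp (m := m) hx
    obtain ⟨η, hη, hRη⟩ := isToric_of_rep hp R
    refine ⟨⟨η, ⟨_, hRη⟩, hη⟩, Subtype.ext ?_⟩
    exact (hφ _).unique hp hRη
  obtain ⟨i₀, hi₀⟩ := hδ
  let κ : φ.ker ≃ rootsOfUnity (p ^ m) k :=
    { toFun := fun ζ => ⟨(ζ : lev p (glueData S p hp) m).1.toMul ⟨i₀, hi₀⟩,
        (mem_rootsOfUnity _ _).mpr
          (congrFun (congrArg Additive.toMul (lev_smul (ζ : lev p (glueData S p hp) m).2)) _)⟩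
      invFun := fun ω => by
        have hω : (((ω : kˣ) : k)) ^ p ^ m = 1 := by
          rw [← Units.val_pow_eq_pow_val, (mem_rootsOfUnity _ _).mp ω.2, Units.val_one]
        have hR := exists_const_rep S (pn_ne_zero hp m) hω
        have hT : IsToric S p (0 : Pic0 L F) (Additive.ofMul fun _ => (ω : kˣ)) :=
          ⟨m, hR.choose, hR.choose_spec.1, hR.choose_spec.2⟩
        refine ⟨⟨Additive.ofMul fun _ => (ω : kˣ), ⟨0, hT⟩, congrArg Additive.ofMul
          (funext fun _ => (mem_rootsOfUnity _ _).mp ω.2)⟩, ?_⟩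
        rw [AddMonoidHom.mem_ker]
        exact Subtype.ext ((hφ _).unique hp hT)
      left_inv := fun ζ => by
        have h0 : IsToric S p (0 : Pic0 L F) (ζ : lev p (glueData S p hp) m).1 := by
          have := hφ (ζ : lev p (glueData S p hp) m)
          rwa [show φ (ζ : lev p (glueData S p hp) m) = 0 from ζ.2] at this
        obtain ⟨c, hc⟩ := h0.const_of_zero hp
        refine Subtype.ext (Subtype.ext (congrArg Additive.ofMul (funext fun i => Units.ext ?_)))
        exact ((hc _).trans (hc i).symm)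
      right_inv := fun ω => rfl }
  have : Finite (lev p (toric S p hp) m) := Finite.of_surjective φ hsurj
  refine ⟨inferInstance, ?_⟩
  rw [← Nat.card_congr (QuotientAddGroup.quotientKerEquivOfSurjective φ hsurj).toEquiv,
    ← HasEnoughRootsOfUnity.natCard_rootsOfUnity k (p ^ m), ← Nat.card_congr κ,
    ← AddSubgroup.card_eq_card_quotient_mul_card_addSubgroup]

include hp in
theorem natCard_toric_le (hδ : S.pairs.Nonempty) (m : ℕ) :
    Nat.card (lev p (toric S p hp) m) ≤ p ^ (m * (S.pairs.card - 1)) := by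
  have hpos : 0 < p ^ m := Nat.pos_of_ne_zero (pn_ne_zero hp m)
  refine Nat.le_of_mul_le_mul_right (c := p ^ m) ?_ hpos
  rw [(natCard_toric hp hδ m).2, ← pow_add,
    show m * (S.pairs.card - 1) + m = m * S.pairs.card by
      have := hδ.card_pos
      rw [← Nat.mul_succ, Nat.succ_eq_add_one, Nat.sub_add_cancel this],
    ← natCard_killed_units (S := S) (hp := hp) m]
  have : Finite (lev p (⊤ : AddSubgroup (Additive (S.pairs → kˣ))) m) :=
    Nat.finite_of_card_ne_zero (by
      rw [natCard_killed_units (hp := hp) m]; exact pn_ne_zero hp _)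
  exact Nat.card_le_card_of_injective _
    (AddSubgroup.inclusion_injective (lev_le p (le_top : glueData S p hp ≤ ⊤) m))

include hp in
/-- If the toric classes have bounded index everywhere, their number is exact. -/
theorem natCard_toric_eq (hprime : p.Prime) (hδ : S.pairs.Nonempty) {D : ℕ}
    (hD : ∀ m, p ^ (m * (S.pairs.card - 1)) ≤ D * Nat.card (lev p (toric S p hp) m)) (m : ℕ) :
    Nat.card (lev p (toric S p hp) m) = p ^ (m * (S.pairs.card - 1)) := by
  refine le_antisymm (natCard_toric_le hp hδ m) ?_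
  have hsplit : ∀ m, p ^ (m * S.pairs.card) = p ^ (m * (S.pairs.card - 1)) * p ^ m := fun m => by
    rw [← pow_add, ← Nat.mul_succ, Nat.succ_eq_add_one, Nat.sub_add_cancel hδ.card_pos]
  have htop : lev p (⊤ : AddSubgroup (Additive (S.pairs → kˣ))) m ≤ glueData S p hp :=
    le_of_bounded_index (D := D) hprime _ _ le_top (natCard_killed_units (hp := hp)) (fun m => by
      rw [natCard_killed_units (hp := hp) m, ← (natCard_toric hp hδ m).2, hsplit, ← mul_assoc]
      exact Nat.mul_le_mul_right _ (hD m)) m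
  refine Nat.le_of_mul_le_mul_right (c := p ^ m) (le_of_eq ?_) (pow_pos hprime.pos m)
  rw [← hsplit, (natCard_toric hp hδ m).2, ← natCard_killed_units (S := S) (hp := hp) m]
  congr 1
  refine congrArg (fun H : AddSubgroup _ => (H : Type _)) ?_
  exact le_antisymm (fun z hz => ⟨htop hz, lev_smul hz⟩)
    (lev_le p (le_top : glueData S p hp ≤ ⊤) m)

end Level

end Fermat.Agent.ToricRows

end
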